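import Fermat.Agent.Density.Reps
import Fermat.Prelude.Def_GaloisRep_ResidualEquiv

/-!
# Brauer–Nesbitt and Carayol

Absolutely irreducible representations span the endomorphism algebra; over a local ring, two
representations spanning their endomorphism algebras with equal traces are isomorphic.
-/

noncomputable section

open scoped TensorProduct

namespace Fermat.Agent.Density

local notation "ℚbar" => AlgebraicClosure ℚ
local notation "Γ" => AlgebraicClosure ℚ ≃ₐ[ℚ] AlgebraicClosure ℚ

section TraceForm

variable {R : Type*} [CommRing R] {V : Type*} [AddCommGroup V] [Module R V] [Module.Free R V]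
  [Module.Finite R V]

theorem eq_zero_of_forall_trace_mul (x : Module.End R V)
    (h : ∀ y : Module.End R V, LinearMap.trace R V (x * y) = 0) : x = 0 := by
  refine LinearMap.ext fun v => (Module.Free.chooseBasis R V).ext_elem fun i => ?_
  have h1 : x * ((Module.Free.chooseBasis R V).coord i).smulRight v =
      ((Module.Free.chooseBasis R V).coord i).smulRight (x v) := by
    ext w
    simp
  have h2 := h (((Module.Free.chooseBasis R V).coord i).smulRight v)
  rw [h1, LinearMap.trace_smulRight] at h2
  simpa using h2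

end TraceForm

section Conjugate

variable {R : Type*} [CommRing R] [IsLocalRing R]
variable {V W : Type*} [AddCommGroup V] [Module R V] [Module.Free R V] [Module.Finite R V]
  [AddCommGroup W] [Module R W] [Module.Free R W] [Module.Finite R W]
variable {B : Type*} [Ring B] [Algebra R B]

/-- Two surjections onto endomorphism algebras of free modules with the same traces are
conjugate. -/
theorem exists_linearEquiv_of_trace_eq [Nontrivial V] (φ : B →ₐ[R] Module.End R V)
    (ψ : B →ₐ[R] Module.End R W) (hφ : Function.Surjective φ) (hψ : Function.Surjective ψ)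
    (htr : ∀ b, LinearMap.trace R V (φ b) = LinearMap.trace R W (ψ b)) :
    ∃ T : V ≃ₗ[R] W, ∀ b v, T (φ b v) = ψ b (T v) := by
  classical
  have hker : ∀ b, φ b = 0 → ψ b = 0 := fun b hb => eq_zero_of_forall_trace_mul _ fun y => by
    obtain ⟨b', rfl⟩ := hψ y
    rw [← map_mul, ← htr, map_mul, hb, zero_mul, map_zero]
  choose s hs using hφ
  have hsψ : ∀ b, ψ (s (φ b)) = ψ b := fun b =>
    sub_eq_zero.1 (by rw [← map_sub]; exact hker _ (by rw [map_sub, hs, sub_self]))
  let f : Module.End R V →ₗ[R] Module.End R W :=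
    { toFun := fun x => ψ (s x)
      map_add' := fun x y => by
        rw [← map_add, ← hsψ (s x + s y), map_add φ, hs, hs]
      map_smul' := fun c x => by
        rw [RingHom.id_apply, ← map_smul, ← hsψ (c • s x), map_smul φ, hs] }
  have hf : ∀ b, f (φ b) = ψ b := hsψ
  have hfmul : ∀ x y, f (x * y) = f x * f y := fun x y => by
    rw [← hs x, ← hs y, ← map_mul, hf, hf, hf, map_mul]
  have hfsurj : Function.Surjective f := fun y => by
    obtain ⟨b, rfl⟩ := hψ y
    exact ⟨φ b, hf b⟩
  have hftr : ∀ x, LinearMap.trace R W (f x) = LinearMap.trace R V x := fun x => by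
    rw [← hs x, hf, htr]
  let e := Module.Free.chooseBasis R V
  have : Nonempty (Module.Free.ChooseBasisIndex R V) := e.index_nonempty
  obtain ⟨i₀⟩ := this
  let c := Module.Free.chooseBasis R W
  obtain ⟨j, hj⟩ : ∃ j, IsUnit (c.coord j (f ((e.coord i₀).smulRight (e i₀)) (c j))) := by
    by_contra hc
    push Not at hc
    have h1 : LinearMap.trace R W (f ((e.coord i₀).smulRight (e i₀))) = 1 := by
      rw [hftr, LinearMap.trace_smulRight]
      simp
    rw [LinearMap.trace_eq_matrix_trace R c, Matrix.trace] at h1
    have hmem : (1 : R) ∈ IsLocalRing.maximalIdeal R := h1 ▸ sum_mem fun i _ => by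
      rw [Matrix.diag_apply, LinearMap.toMatrix_apply]
      exact (IsLocalRing.mem_maximalIdeal _).2 (hc i)
    exact (IsLocalRing.maximalIdeal.isMaximal R).ne_top ((Ideal.eq_top_iff_one _).2 hmem)
  obtain ⟨u, hu⟩ := hj
  let T : V →ₗ[R] W :=
    { toFun := fun x => f ((e.coord i₀).smulRight x) (c j)
      map_add' := fun x y => by
        rw [← LinearMap.add_apply, ← map_add]
        congr 2
        ext w
        simp
      map_smul' := fun a x => by
        rw [RingHom.id_apply, ← LinearMap.smul_apply, ← map_smul]
        congr 2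
        ext w
        simp [smul_comm a] }
  have hT : ∀ (x : Module.End R V) (v : V), T (x v) = f x (T v) := fun x v => by
    change f ((e.coord i₀).smulRight (x v)) (c j) = f x (f ((e.coord i₀).smulRight v) (c j))
    rw [← Module.End.mul_apply, ← hfmul]
    congr 2
    ext w
    simp
  have hw : c.coord j (T (e i₀)) = u := hu.symm
  have hsurj : Function.Surjective T := fun y => by
    obtain ⟨x, hx⟩ := hfsurj ((((u⁻¹ : Rˣ) : R) • c.coord j).smulRight y)
    exact ⟨x (e i₀), by rw [hT, hx, LinearMap.smulRight_apply, LinearMap.smul_apply, hw,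
      smul_eq_mul, Units.inv_mul, one_smul]⟩
  have hinj : Function.Injective T := by
    refine (injective_iff_map_eq_zero T).2 fun v hv => e.ext_elem fun i => ?_
    have h := hT ((e.coord i).smulRight (e i₀)) v
    rw [hv, map_zero, LinearMap.smulRight_apply, map_smul] at h
    have h' := congrArg (c.coord j) h
    rw [map_smul, map_zero, smul_eq_mul, hw] at h'
    rw [map_zero, Finsupp.zero_apply]
    exact (Units.mul_left_eq_zero u).1 h'
  refine ⟨LinearEquiv.ofBijective T ⟨hinj, hsurj⟩, fun b v => ?_⟩
  change T (φ b v) = ψ b (T v)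
  rw [hT, hf]

omit [IsLocalRing R] [Module.Free R V] [Module.Finite R V] in
theorem range_lift_eq_span {G : Type*} [Monoid G] (π : G →* Module.End R V) :
    LinearMap.range (MonoidAlgebra.lift R (Module.End R V) G π).toLinearMap =
      Submodule.span R (Set.range π) := by
  refine le_antisymm ?_ (Submodule.span_le.2 ?_)
  · rintro _ ⟨b, rfl⟩
    induction b using MonoidAlgebra.induction_linear with
    | zero => simp
    | add a b ha hb => rw [map_add]; exact add_mem ha hb
    | single g c =>
      simpa using Submodule.smul_mem _ c (Submodule.subset_span (Set.mem_range_self g))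
  · rintro _ ⟨g, rfl⟩
    exact ⟨MonoidAlgebra.of R G g, MonoidAlgebra.lift_of _ _⟩

/-- **Carayol.** Two representations over a local ring whose images span the endomorphism
algebras and whose traces agree are isomorphic. -/
theorem exists_intertwiner_of_trace_eq {G : Type*} [Monoid G] [Nontrivial V]
    (ρ : G →* Module.End R V) (ρ' : G →* Module.End R W)
    (hρ : Submodule.span R (Set.range ρ) = ⊤) (hρ' : Submodule.span R (Set.range ρ') = ⊤)
    (htr : ∀ g, LinearMap.trace R V (ρ g) = LinearMap.trace R W (ρ' g)) :
    ∃ T : V ≃ₗ[R] W, ∀ g v, T (ρ g v) = ρ' g (T v) := by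
  have hlin : (LinearMap.trace R V).comp (MonoidAlgebra.lift R _ G ρ).toLinearMap =
      (LinearMap.trace R W).comp (MonoidAlgebra.lift R _ G ρ').toLinearMap := by
    refine MonoidAlgebra.lhom_ext' fun g => LinearMap.ext_ring ?_
    simpa using htr g
  obtain ⟨T, hT⟩ := exists_linearEquiv_of_trace_eq _ _
    (LinearMap.range_eq_top.1 ((range_lift_eq_span ρ).trans hρ))
    (LinearMap.range_eq_top.1 ((range_lift_eq_span ρ').trans hρ'))
    fun b => LinearMap.congr_fun hlin b
  exact ⟨T, fun g v => by simpa using hT (MonoidAlgebra.of R G g) v⟩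

end Conjugate

section Burnside

/-- An irreducible representation over an algebraically closed field spans all endomorphisms. -/
theorem span_range_eq_top_of_irreducible {K : Type*} [Field K] [IsAlgClosed K] {G : Type*}
    [Monoid G] {V : Type*} [AddCommGroup V] [Module K V] [FiniteDimensional K V] [Nontrivial V]
    (ρ : G →* Module.End K V)
    (hirr : ∀ U : Submodule K V, (∀ g, ∀ x ∈ U, ρ g x ∈ U) → U = ⊥ ∨ U = ⊤) :
    Submodule.span K (Set.range ρ) = ⊤ := by
  set A : Subalgebra K (Module.End K V) := Algebra.adjoin K (Set.range ρ)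
  have hA : A.toSubmodule = Submodule.span K (Set.range ρ) := by
    rw [Algebra.adjoin_eq_span, ← MonoidHom.coe_mrange, Submonoid.closure_eq]
  have hmem : ∀ g, ρ g ∈ A := fun g => Algebra.subset_adjoin ⟨g, rfl⟩
  have : IsSimpleOrder (Submodule A V) :=
    { eq_bot_or_eq_top := fun U =>
        (hirr (U.restrictScalars K) fun g x hx => U.smul_mem (⟨ρ g, hmem g⟩ : A) hx).imp
          (fun h => by ext x; exact SetLike.ext_iff.1 h x)
          (fun h => by ext x; exact SetLike.ext_iff.1 h x) }
  have : IsSimpleModule A V := ⟨⟩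
  rw [← hA, eq_top_iff]
  intro g _
  have hscalar : ∀ φ : Module.End A V, ∃ c : K, ∀ v, φ v = c • v := by
    intro φ
    let φK : Module.End K V := φ.restrictScalars K
    obtain ⟨c, hc⟩ := Module.End.exists_eigenvalue φK
    refine ⟨c, fun v => ?_⟩
    have hstab : ∀ g, ∀ x ∈ Module.End.eigenspace φK c, ρ g x ∈ Module.End.eigenspace φK c := by
      intro g x hx
      rw [Module.End.mem_eigenspace_iff] at hx ⊢
      change φ ((⟨ρ g, hmem g⟩ : A) • x) = _
      rw [map_smul]
      change ρ g (φK x) = _
      rw [hx, map_smul]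
    rcases hirr _ hstab with h | h
    · exact absurd h (by simpa [Module.End.hasEigenvalue_iff] using hc)
    · have hv : v ∈ Module.End.eigenspace φK c := h ▸ Submodule.mem_top
      exact Module.End.mem_eigenspace_iff.1 hv
  let f : Module.End (Module.End A V) V :=
    { toFun := g
      map_add' := map_add g
      map_smul' := fun φ v => by
        obtain ⟨c, hc⟩ := hscalar φ
        rw [RingHom.id_apply, Module.End.smul_def, Module.End.smul_def, hc, hc, map_smul] }
  classical
  obtain ⟨r, hr⟩ := jacobson_density f (Finset.univ.image (Module.Free.chooseBasis K V))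
  have : g = (r : Module.End K V) := (Module.Free.chooseBasis K V).ext fun i =>
    hr _ (Finset.mem_image_of_mem _ (Finset.mem_univ i))
  rw [this]
  exact r.2

/-- Spanning descends along field extensions. -/
theorem span_eq_top_of_baseChange {k : Type*} [Field k] (K : Type*) [Field K] [Algebra k K]
    {V : Type*} [AddCommGroup V] [Module k V] [FiniteDimensional k V] (s : Set (Module.End k V))
    (h : Submodule.span K (Module.End.baseChangeHom k K V '' s) = ⊤) :
    Submodule.span k s = ⊤ := by
  set U := Submodule.span k s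
  let v := Module.finBasis k U
  let w : Fin (Module.finrank k U) → Module.End K (K ⊗[k] V) := fun i =>
    Module.End.baseChangeHom k K V (v i : Module.End k V)
  have hle : Submodule.span K (Module.End.baseChangeHom k K V '' s) ≤
      Submodule.span K (Set.range w) := by
    rw [Submodule.span_le]
    rintro _ ⟨x, hx, rfl⟩
    have hxU : x ∈ U := Submodule.subset_span hx
    have hx' : x = ∑ i, v.repr ⟨x, hxU⟩ i • (v i : Module.End k V) := by
      have h1 := congrArg U.subtype (v.sum_repr ⟨x, hxU⟩)
      simp only [map_sum, map_smul, Submodule.subtype_apply] at h1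
      exact h1.symm
    rw [hx', map_sum]
    refine Submodule.sum_mem _ fun i _ => ?_
    rw [map_smul, ← IsScalarTower.algebraMap_smul K]
    exact Submodule.smul_mem _ _ (Submodule.subset_span ⟨i, rfl⟩)
  rw [h, top_le_iff] at hle
  have h1 := finrank_range_le_card (R := K) w
  rw [Set.finrank, hle, finrank_top, Fintype.card_fin,
    Module.finrank_linearMap, Module.finrank_baseChange] at h1
  exact Submodule.eq_top_of_finrank_eq
    (le_antisymm (Submodule.finrank_le _) (by rw [Module.finrank_linearMap]; exact h1))

variable {k : Type} [Field k]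

/-- An absolutely irreducible residual representation spans all endomorphisms. -/
theorem span_range_eq_top_of_isAbsolutelyIrreducible (ρ : ResidualGaloisRep k)
    (h : ρ.IsAbsolutelyIrreducible) : Submodule.span k (Set.range ρ.ρ) = ⊤ := by
  have : Nontrivial (ρ.baseChange (AlgebraicClosure k)).V :=
    Module.nontrivial_of_finrank_pos (R := AlgebraicClosure k)
      (by rw [(ρ.baseChange (AlgebraicClosure k)).finrank_eq]; norm_num)
  refine span_eq_top_of_baseChange (AlgebraicClosure k) _ ?_
  rw [← Set.range_comp]
  exact span_range_eq_top_of_irreducible (ρ.baseChange (AlgebraicClosure k)).ρ h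

/-- **Brauer–Nesbitt.** An absolutely irreducible residual representation is determined by its
characteristic polynomials. -/
theorem residual_isEquiv_of_trace_eq (ρ ρ' : ResidualGaloisRep k)
    (h : ρ.IsAbsolutelyIrreducible)
    (htr : ∀ σ, LinearMap.trace k ρ.V (ρ.ρ σ) = LinearMap.trace k ρ'.V (ρ'.ρ σ)) :
    ρ.IsEquiv ρ' := by
  have hspan := span_range_eq_top_of_isAbsolutelyIrreducible ρ h
  have : Nontrivial ρ.V := Module.nontrivial_of_finrank_pos (R := k)
    (by rw [ρ.finrank_eq]; norm_num)
  suffices hspan' : Submodule.span k (Set.range ρ'.ρ) = ⊤ by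
    obtain ⟨T, hT⟩ := exists_intertwiner_of_trace_eq ρ.ρ ρ'.ρ hspan hspan' htr
    exact ⟨⟨T, hT⟩⟩
  let φ := MonoidAlgebra.lift k (Module.End k ρ.V) Γ ρ.ρ
  let ψ := MonoidAlgebra.lift k (Module.End k ρ'.V) Γ ρ'.ρ
  have hlin : (LinearMap.trace k ρ.V).comp φ.toLinearMap =
      (LinearMap.trace k ρ'.V).comp ψ.toLinearMap := by
    refine MonoidAlgebra.lhom_ext' fun g => LinearMap.ext_ring ?_
    simpa [φ, ψ] using htr g
  have hker : LinearMap.ker ψ.toLinearMap ≤ LinearMap.ker φ.toLinearMap := fun b hb => by
    rw [LinearMap.mem_ker] at hb ⊢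
    refine eq_zero_of_forall_trace_mul _ fun y => ?_
    obtain ⟨b', rfl⟩ := LinearMap.range_eq_top.1 ((range_lift_eq_span ρ.ρ).trans hspan) y
    change LinearMap.trace k ρ.V (φ b * φ b') = 0
    rw [← map_mul]
    refine (LinearMap.congr_fun hlin (b * b')).trans ?_
    simp only [LinearMap.comp_apply, AlgHom.toLinearMap_apply] at hb ⊢
    rw [map_mul, hb, zero_mul, map_zero]
  rw [← range_lift_eq_span]
  refine Submodule.eq_top_of_finrank_eq (le_antisymm (Submodule.finrank_le _) ?_)
  have hφsurj := LinearMap.range_eq_top.1 ((range_lift_eq_span ρ.ρ).trans hspan)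
  let Φ : (MonoidAlgebra k Γ ⧸ LinearMap.ker ψ.toLinearMap) →ₗ[k] Module.End k ρ.V :=
    Submodule.liftQ _ φ.toLinearMap hker
  have hΦ : Function.Surjective Φ := fun y => by
    obtain ⟨b, rfl⟩ := hφsurj y
    exact ⟨Submodule.Quotient.mk b, Submodule.liftQ_apply _ _ _⟩
  have hfin : Module.Finite k (MonoidAlgebra k Γ ⧸ LinearMap.ker ψ.toLinearMap) :=
    Module.Finite.equiv ψ.toLinearMap.quotKerEquivRange.symm
  have := LinearMap.finrank_le_finrank_of_surjective (f := Φ) hΦ
  rw [LinearEquiv.finrank_eq ψ.toLinearMap.quotKerEquivRange, Module.finrank_linearMap,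
    ρ.finrank_eq] at this
  rw [Module.finrank_linearMap, ρ'.finrank_eq]
  exact this

/-- An absolutely irreducible residual representation is determined by the characteristic
polynomials of Frobenius at almost all primes. -/
theorem residual_isEquiv_of_forall_frobenius (ρ ρ' : ResidualGaloisRep k)
    (h : ρ.IsAbsolutelyIrreducible) (S : Set ℕ) (hS : S.Finite)
    (heq : ∀ ℓ : ℕ, ℓ.Prime → ℓ ∉ S → ∀ A : ValuationSubring ℚbar, A.LiesOverPrime ℓ →
      ∀ τ : Γ, A.IsFrobeniusAt τ ℓ → LinearMap.charpoly (ρ.ρ τ) = LinearMap.charpoly (ρ'.ρ τ)) :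
    ρ.IsEquiv ρ' :=
  residual_isEquiv_of_trace_eq ρ ρ' h fun σ =>
    ((charpoly_eq_iff ρ.finrank_eq ρ'.finrank_eq _ _).1
      (residual_charpoly_eq_of_forall_frobenius ρ ρ' S hS heq σ)).1

end Burnside

section Adic

variable {A : Type} [CommRing A] [IsLocalRing A]

/-- Nakayama: absolutely irreducible reduction implies the image spans all endomorphisms. -/
theorem adic_span_range_eq_top (ρ : GaloisRepAdic A) (h : ρ.residual.IsAbsolutelyIrreducible) :
    Submodule.span A (Set.range ρ.ρ) = ⊤ := by
  classical
  set U := Submodule.span A (Set.range ρ.ρ)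
  let k := IsLocalRing.ResidueField A
  let b := Module.finBasisOfFinrankEq A ρ.V ρ.finrank_eq
  let red := Module.End.baseChangeHom A k ρ.V
  have hred : ∀ x : Module.End A ρ.V, red x = 0 → x ∈ IsLocalRing.maximalIdeal A •
      (⊤ : Submodule A (Module.End A ρ.V)) := by
    intro x hx
    have hM : ∀ i j, LinearMap.toMatrix b b x i j ∈ IsLocalRing.maximalIdeal A := fun i j => by
      have := congrArg (fun M => M i j) (LinearMap.toMatrix_baseChange k x b b)
      rw [show x.baseChange k = 0 from hx] at this
      rw [← IsLocalRing.residue_eq_zero_iff, ← IsLocalRing.ResidueField.algebraMap_eq]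
      rw [map_zero] at this
      exact this.symm
    rw [← (Module.Basis.linearMap b b).sum_repr x]
    refine Submodule.sum_mem _ fun ij _ => Submodule.smul_mem_smul ?_ Submodule.mem_top
    obtain ⟨i, j⟩ := ij
    simpa [Module.Basis.linearMap, LinearMap.toMatrix, Matrix.stdBasis] using hM i j
  have hle : (⊤ : Submodule A (Module.End A ρ.V)) ≤ U ⊔ IsLocalRing.maximalIdeal A • ⊤ := by
    intro x _
    have hk : red x ∈ Submodule.span k (red '' Set.range ρ.ρ) := by
      rw [← Set.range_comp]
      exact (span_range_eq_top_of_isAbsolutelyIrreducible ρ.residual h).ge Submodule.mem_top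
    have hsur : ∀ y ∈ Submodule.span k (red '' Set.range ρ.ρ), ∃ u ∈ U, red u = y := by
      intro y hy
      induction hy using Submodule.span_induction with
      | mem y hy =>
        obtain ⟨z, hz, rfl⟩ := hy
        exact ⟨z, Submodule.subset_span hz, rfl⟩
      | zero => exact ⟨0, zero_mem U, map_zero red⟩
      | add y y' _ _ hy hy' =>
        obtain ⟨u, hu, rfl⟩ := hy
        obtain ⟨u', hu', rfl⟩ := hy'
        exact ⟨u + u', add_mem hu hu', map_add red u u'⟩
      | smul c y _ hy =>
        obtain ⟨u, hu, rfl⟩ := hy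
        obtain ⟨a, rfl⟩ := IsLocalRing.residue_surjective c
        exact ⟨a • u, U.smul_mem a hu, by
          rw [map_smul, ← IsLocalRing.ResidueField.algebraMap_eq, IsScalarTower.algebraMap_smul]⟩
    obtain ⟨u, hu, hux⟩ := hsur _ hk
    rw [show x = u + (x - u) by abel]
    exact Submodule.add_mem_sup hu (hred _ (by rw [map_sub, hux, sub_self]))
  exact top_le_iff.1 (Submodule.le_of_le_smul_of_le_jacobson_bot Module.Finite.fg_top
    (IsLocalRing.jacobson_eq_maximalIdeal (⊥ : Ideal A) bot_ne_top).ge hle)

/-- **Carayol.** An adic representation with absolutely irreducible reduction is determined by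
the characteristic polynomials of Frobenius at almost all primes. -/
theorem adic_isEquiv_of_forall_frobenius [IsHausdorff (IsLocalRing.maximalIdeal A) A]
    (ρ ρ' : GaloisRepAdic A) (h : ρ.residual.IsAbsolutelyIrreducible)
    (h' : ρ'.residual.IsAbsolutelyIrreducible) (S : Set ℕ) (hS : S.Finite)
    (heq : ∀ ℓ : ℕ, ℓ.Prime → ℓ ∉ S → ∀ P : ValuationSubring ℚbar, P.LiesOverPrime ℓ →
      ∀ τ : Γ, P.IsFrobeniusAt τ ℓ → LinearMap.charpoly (ρ.ρ τ) = LinearMap.charpoly (ρ'.ρ τ)) :
    ρ.IsEquiv ρ' := by
  have : Nontrivial ρ.V := Module.nontrivial_of_finrank_pos (R := A)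
    (by rw [ρ.finrank_eq]; norm_num)
  obtain ⟨T, hT⟩ := exists_intertwiner_of_trace_eq ρ.ρ ρ'.ρ (adic_span_range_eq_top ρ h)
    (adic_span_range_eq_top ρ' h') fun σ => ((charpoly_eq_iff ρ.finrank_eq ρ'.finrank_eq _ _).1
      (adic_charpoly_eq_of_forall_frobenius ρ ρ' S hS heq σ)).1
  exact ⟨⟨T, hT⟩⟩

end Adic

end Fermat.Agent.Density
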