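import Fermat.Agent.Density.Frobenius
import Fermat.Agent.Gal.Frobenius

/-!
# Frobenius' density theorem for the absolute Galois group of `ℚ`

Every property of `Gal(ℚ̄/ℚ)` that factors through a finite level and is stable under conjugation
and powers holds everywhere once it holds at the Frobenius elements of almost all primes.
-/

noncomputable section

open NumberField
open scoped Pointwise

namespace Fermat.Agent.Density

local notation "ℚbar" => AlgebraicClosure ℚ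
local notation "Γ" => AlgebraicClosure ℚ ≃ₐ[ℚ] AlgebraicClosure ℚ

/-- For a normal number field `N ⊆ ℚ̄` and `σ`: there is a prime `ℓ` outside `S`, unramified in
`N`, such that for every Frobenius `τ` over `ℓ` the restrictions of `σ` and of a conjugate of `τ`
generate the same subgroup of `Gal(N/ℚ)`. -/
theorem exists_prime_zpowers_restrict_eq (N : IntermediateField ℚ ℚbar) [FiniteDimensional ℚ N]
    [Normal ℚ N] (σ : Γ) (S : Finset ℕ) :
    ∃ ℓ : ℕ, ℓ.Prime ∧ ℓ ∉ S ∧ ∀ A : ValuationSubring ℚbar, A.LiesOverPrime ℓ →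
      (∀ u ∈ A.inertiaSubgroupIn ℚ, ∀ x ∈ N, u x = x) ∧
      ∀ τ : Γ, A.IsFrobeniusAt τ ℓ →
        ∃ g : Γ, Subgroup.zpowers (AlgEquiv.restrictNormalHom N (g * τ * g⁻¹)) =
          Subgroup.zpowers (AlgEquiv.restrictNormalHom N σ) := by
  have : NumberField N := ⟨⟩
  have : IsGalois ℚ N := ⟨⟩
  obtain ⟨ℓ, hℓ, hℓS, h⟩ :=
    exists_prime_forall_frobAt (AlgEquiv.restrictNormalHom (F := ℚ) (K₁ := ℚbar) N σ) S
  refine ⟨ℓ, hℓ, hℓS, fun A hA => ?_⟩
  let toZbar : 𝓞 N →+* integralClosure ℤ ℚbar :=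
    ((algebraMap N ℚbar).comp (algebraMap (𝓞 N) N)).codRestrict (integralClosure ℤ ℚbar) fun x =>
      (RingOfIntegers.isIntegral_coe x).algebraMap
  set Q : Ideal (𝓞 N) := (Gal.centre A).comap toZbar
  have hQmem : ∀ x : 𝓞 N, x ∈ Q ↔ ((x : N) : ℚbar) ∈ A.nonunits := fun x => Iff.rfl
  have hres : ∀ (u : Γ) (x : 𝓞 N),
      (((AlgEquiv.restrictNormalHom N u • x : 𝓞 N) : N) : ℚbar) = u ((x : N) : ℚbar) :=
    fun u x => AlgEquiv.restrictNormal_commutes u N (x : N)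
  have hQℓ : (ℓ : 𝓞 N) ∈ Q := by
    rw [hQmem]
    simpa [ValuationSubring.LiesOverPrime] using hA
  obtain ⟨hdet, hfrob⟩ := h Q inferInstance hQℓ
  have hmemA : ∀ x : 𝓞 N, ((x : N) : ℚbar) ∈ A := fun x =>
    Gal.mem_of_isIntegral A (RingOfIntegers.isIntegral_coe x).algebraMap
  refine ⟨fun u hu x hx => ?_, fun τ hτ => ?_⟩
  · have h1 : AlgEquiv.restrictNormalHom N u = 1 := hdet _ 1 fun y => by
      rw [one_smul, hQmem]
      simpa [hres] using ((Gal.mem_inertia_iff A u).1 hu).2 _ (hmemA y)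
    have h2 := AlgEquiv.restrictNormal_commutes u N ⟨x, hx⟩
    rw [show AlgEquiv.restrictNormal u N = (1 : N ≃ₐ[ℚ] N) from h1] at h2
    exact h2.symm
  · have hF : FrobAt Q ℓ (AlgEquiv.restrictNormalHom N τ) := fun y => by
      rw [hQmem]
      simpa [hres] using ((Gal.isFrobeniusAt_iff A τ ℓ).1 hτ).2 _ (hmemA y)
    obtain ⟨g, hg⟩ := hfrob _ hF
    obtain ⟨g, rfl⟩ := AlgEquiv.restrictNormalHom_surjective (E := ℚbar) (F := ℚ) (K₁ := N) g
    exact ⟨g, by rw [map_mul, map_mul, map_inv]; exact hg⟩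

/-- On a finite extension `L/ℚ`, `σ` is a conjugate of a power of a Frobenius element at some
prime outside `S`; more precisely at every place over that prime. -/
theorem exists_prime_eqOn_conj_frobenius_pow (L : IntermediateField ℚ ℚbar)
    [FiniteDimensional ℚ L] (σ : Γ) (S : Finset ℕ) :
    ∃ ℓ : ℕ, ℓ.Prime ∧ ℓ ∉ S ∧ ∀ A : ValuationSubring ℚbar, A.LiesOverPrime ℓ →
      ∀ τ : Γ, A.IsFrobeniusAt τ ℓ →
        ∃ (g : Γ) (j : ℕ), ∀ x ∈ L, σ x = (g * τ ^ j * g⁻¹) x := by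
  set N := IntermediateField.normalClosure ℚ L ℚbar
  have : Normal ℚ N := normalClosure.normal ℚ L ℚbar
  obtain ⟨ℓ, hℓ, hℓS, h⟩ := exists_prime_zpowers_restrict_eq N σ S
  refine ⟨ℓ, hℓ, hℓS, fun A hA τ hτ => ?_⟩
  have : Finite (N ≃ₐ[ℚ] N) := inferInstance
  obtain ⟨g, hg⟩ := (h A hA).2 τ hτ
  obtain ⟨j, hj⟩ := mem_powers_iff_mem_zpowers.2 (hg ▸ Subgroup.mem_zpowers
    (AlgEquiv.restrictNormalHom N σ))
  refine ⟨g, j, fun x hx => ?_⟩
  have hj' : AlgEquiv.restrictNormalHom N (g * τ ^ j * g⁻¹) = AlgEquiv.restrictNormalHom N σ := by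
    rw [← conj_pow, map_pow]
    exact hj
  have hxN : x ∈ N := L.le_normalClosure hx
  have h1 := AlgEquiv.restrictNormal_commutes (g * τ ^ j * g⁻¹) N ⟨x, hxN⟩
  have h2 := AlgEquiv.restrictNormal_commutes σ N ⟨x, hxN⟩
  rw [show AlgEquiv.restrictNormal (g * τ ^ j * g⁻¹) N = AlgEquiv.restrictNormal σ N from hj']
    at h1
  exact h2.symm.trans h1

/-- **Frobenius density, induction form.** A property that depends only on the restriction to a
finite extension and is stable under conjugation and powers holds everywhere if it holds at the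
Frobenius elements of all primes outside a finite set. -/
theorem forall_of_forall_frobenius (L : IntermediateField ℚ ℚbar) [FiniteDimensional ℚ L]
    (P : Γ → Prop) (hcongr : ∀ σ σ' : Γ, (∀ x ∈ L, σ x = σ' x) → P σ' → P σ)
    (hconj : ∀ g σ : Γ, P σ → P (g * σ * g⁻¹)) (hpow : ∀ (σ : Γ) (j : ℕ), P σ → P (σ ^ j))
    (S : Set ℕ) (hS : S.Finite)
    (h : ∀ ℓ : ℕ, ℓ.Prime → ℓ ∉ S → ∀ A : ValuationSubring ℚbar, A.LiesOverPrime ℓ →
      ∀ τ : Γ, A.IsFrobeniusAt τ ℓ → P τ) (σ : Γ) : P σ := by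
  obtain ⟨ℓ, hℓ, hℓS, hex⟩ := exists_prime_eqOn_conj_frobenius_pow L σ hS.toFinset
  obtain ⟨A, hA⟩ := Gal.exists_liesOverPrime (L := ℚbar) hℓ
  obtain ⟨τ, hτ⟩ := Gal.exists_isFrobeniusAt hℓ hA
  obtain ⟨g, j, hgj⟩ := hex A hA τ hτ
  exact hcongr σ _ hgj (hconj g _ (hpow τ j (h ℓ hℓ (by simpa using hℓS) A hA τ hτ)))

end Fermat.Agent.Density
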