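import Fermat.Agent.Density.Places
import Fermat.Prelude.Def_GaloisRep_Adic

/-!
# Representations are determined by Frobenius elements

Corollaries of Frobenius' density theorem for homomorphisms to commutative monoids and for
two-dimensional representations, at finite level and adic.
-/

noncomputable section

open Polynomial
open scoped TensorProduct

namespace Fermat.Agent.Density

local notation "ℚbar" => AlgebraicClosure ℚ
local notation "Γ" => AlgebraicClosure ℚ ≃ₐ[ℚ] AlgebraicClosure ℚ

section Level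

variable {M N : Type*} [MulOneClass M] [MulOneClass N]

/-- A homomorphism trivial on the automorphisms fixing `L` only depends on restrictions to `L`. -/
theorem apply_eq_of_eqOn (ρ : Γ →* M) (L : IntermediateField ℚ ℚbar)
    (h : ∀ σ : Γ, (∀ x ∈ L, σ x = x) → ρ σ = 1) {σ σ' : Γ} (heq : ∀ x ∈ L, σ x = σ' x) :
    ρ σ = ρ σ' := by
  have h1 : ρ (σ'⁻¹ * σ) = 1 := h _ fun x hx => by
    rw [AlgEquiv.mul_apply, heq x hx, ← AlgEquiv.mul_apply, inv_mul_cancel, AlgEquiv.one_apply]
  rw [show σ = σ' * (σ'⁻¹ * σ) by group, map_mul, h1, mul_one]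

/-- Two homomorphisms of finite level are trivial beyond a common finite level. -/
theorem exists_common_level {M N : Type} [MulOneClass M] [MulOneClass N] {ρ : Γ →* M}
    {ρ' : Γ →* N} (h : GaloisFactorsThroughFiniteLevel ρ)
    (h' : GaloisFactorsThroughFiniteLevel ρ') :
    ∃ L : IntermediateField ℚ ℚbar, FiniteDimensional ℚ L ∧
      (∀ σ : Γ, (∀ x ∈ L, σ x = x) → ρ σ = 1) ∧ ∀ σ : Γ, (∀ x ∈ L, σ x = x) → ρ' σ = 1 := by
  obtain ⟨L, hL, h1⟩ := h
  obtain ⟨L', hL', h2⟩ := h'
  exact ⟨L ⊔ L', IntermediateField.finiteDimensional_sup L L',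
    fun σ hσ => h1 σ fun x hx => hσ x ((le_sup_left : L ≤ L ⊔ L') hx),
    fun σ hσ => h2 σ fun x hx => hσ x ((le_sup_right : L' ≤ L ⊔ L') hx)⟩

end Level

/-- Homomorphisms of finite level to a commutative monoid are determined by Frobenius elements. -/
theorem monoidHom_eq_of_forall_frobenius {M : Type} [CommMonoid M] {χ χ' : Γ →* M}
    (h : GaloisFactorsThroughFiniteLevel χ) (h' : GaloisFactorsThroughFiniteLevel χ')
    (S : Set ℕ) (hS : S.Finite)
    (heq : ∀ ℓ : ℕ, ℓ.Prime → ℓ ∉ S → ∀ A : ValuationSubring ℚbar, A.LiesOverPrime ℓ →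
      ∀ τ : Γ, A.IsFrobeniusAt τ ℓ → χ τ = χ' τ) : χ = χ' := by
  obtain ⟨L, hL, h1, h2⟩ := exists_common_level h h'
  refine MonoidHom.ext fun σ => forall_of_forall_frobenius L (fun σ => χ σ = χ' σ)
    ?_ ?_ ?_ S hS heq σ
  · intro σ σ' hxy e
    rwa [apply_eq_of_eqOn χ L h1 hxy, apply_eq_of_eqOn χ' L h2 hxy]
  · intro g σ e
    simp only [map_mul, e]
    rw [mul_right_comm, mul_right_comm (χ' g), ← map_mul, ← map_mul χ', mul_inv_cancel, map_one,
      map_one]
  · intro σ j e
    simp [map_pow, e]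

section RankTwo

variable {R : Type*} [CommRing R] [Nontrivial R]
variable {V : Type*} [AddCommGroup V] [Module R V] [Module.Free R V] [Module.Finite R V]
variable {W : Type*} [AddCommGroup W] [Module R W] [Module.Free R W] [Module.Finite R W]

theorem charpoly_eq_of_finrank_two (hV : Module.finrank R V = 2) (f : Module.End R V) :
    LinearMap.charpoly f =
      X ^ 2 - C (LinearMap.trace R V f) * X + C (LinearMap.det f) := by
  let b := Module.finBasisOfFinrankEq R V hV
  rw [← LinearMap.charpoly_toMatrix f b, Matrix.charpoly_fin_two,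
    LinearMap.trace_eq_matrix_trace R b, LinearMap.det_toMatrix]

theorem charpoly_eq_iff (hV : Module.finrank R V = 2) (hW : Module.finrank R W = 2)
    (f : Module.End R V) (g : Module.End R W) :
    LinearMap.charpoly f = LinearMap.charpoly g ↔
      LinearMap.trace R V f = LinearMap.trace R W g ∧ LinearMap.det f = LinearMap.det g := by
  rw [charpoly_eq_of_finrank_two hV, charpoly_eq_of_finrank_two hW]
  refine ⟨fun h => ⟨?_, ?_⟩, fun h => by rw [h.1, h.2]⟩
  · have := congrArg (fun p : R[X] => p.coeff 1) h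
    simpa [coeff_X_pow, coeff_C] using this
  · have := congrArg (fun p : R[X] => p.coeff 0) h
    simpa [coeff_X_pow] using this

theorem trace_pow_add_two (hV : Module.finrank R V = 2) (f : Module.End R V) (j : ℕ) :
    LinearMap.trace R V (f ^ (j + 2)) = LinearMap.trace R V f * LinearMap.trace R V (f ^ (j + 1))
      - LinearMap.det f * LinearMap.trace R V (f ^ j) := by
  have h := LinearMap.aeval_self_charpoly f
  rw [charpoly_eq_of_finrank_two hV] at h
  simp only [map_add, map_sub, map_mul, map_pow, aeval_X, aeval_C,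
    Algebra.algebraMap_eq_smul_one, smul_mul_assoc, one_mul] at h
  have h2 : f ^ (j + 2) =
      LinearMap.trace R V f • f ^ (j + 1) - LinearMap.det f • f ^ j := by
    have := congrArg (fun x => f ^ j * x) h
    simp only [mul_add, mul_sub, mul_zero, mul_smul_comm, mul_one, ← pow_add, ← pow_succ] at this
    linear_combination (norm := module) this
  rw [h2, map_sub, map_smul, map_smul, smul_eq_mul, smul_eq_mul]

theorem charpoly_pow_eq (hV : Module.finrank R V = 2) (hW : Module.finrank R W = 2)
    {f : Module.End R V} {g : Module.End R W}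
    (h : LinearMap.charpoly f = LinearMap.charpoly g) (j : ℕ) :
    LinearMap.charpoly (f ^ j) = LinearMap.charpoly (g ^ j) := by
  obtain ⟨ht, hd⟩ := (charpoly_eq_iff hV hW f g).1 h
  refine (charpoly_eq_iff hV hW _ _).2 ⟨?_, by rw [map_pow, map_pow, hd]⟩
  induction j using Nat.strong_induction_on with
  | _ j ih =>
    rcases j with _ | _ | j
    · simp [LinearMap.trace_one, hV, hW]
    · simpa using ht
    · rw [trace_pow_add_two hV, trace_pow_add_two hW, ht, hd, ih (j + 1) (by omega),
        ih j (by omega)]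

end RankTwo

theorem charpoly_conj_eq {R : Type*} [CommRing R] [Nontrivial R] {V : Type*} [AddCommGroup V]
    [Module R V] [Module.Free R V] [Module.Finite R V] (hV : Module.finrank R V = 2)
    (ρ : Γ →* Module.End R V) (g σ : Γ) :
    LinearMap.charpoly (ρ (g * σ * g⁻¹)) = LinearMap.charpoly (ρ σ) := by
  refine (charpoly_eq_iff hV hV _ _).2 ⟨?_, ?_⟩
  · rw [map_mul, LinearMap.trace_mul_comm, ← map_mul, inv_mul_cancel_left]
  · rw [← MonoidHom.comp_apply, ← MonoidHom.comp_apply, map_mul, map_mul, mul_comm,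
      ← mul_assoc, ← map_mul, inv_mul_cancel, map_one, one_mul]

/-- Two-dimensional representations of finite level with the same Frobenius characteristic
polynomials at almost all primes have the same characteristic polynomials everywhere. -/
theorem charpoly_eq_of_forall_frobenius {R : Type} [CommRing R] [Nontrivial R]
    {V W : Type} [AddCommGroup V] [Module R V] [Module.Free R V] [Module.Finite R V]
    [AddCommGroup W] [Module R W] [Module.Free R W] [Module.Finite R W]
    (hV : Module.finrank R V = 2) (hW : Module.finrank R W = 2)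
    {ρ : Γ →* Module.End R V} {ρ' : Γ →* Module.End R W}
    (h : GaloisFactorsThroughFiniteLevel ρ) (h' : GaloisFactorsThroughFiniteLevel ρ')
    (S : Set ℕ) (hS : S.Finite)
    (heq : ∀ ℓ : ℕ, ℓ.Prime → ℓ ∉ S → ∀ A : ValuationSubring ℚbar, A.LiesOverPrime ℓ →
      ∀ τ : Γ, A.IsFrobeniusAt τ ℓ → LinearMap.charpoly (ρ τ) = LinearMap.charpoly (ρ' τ))
    (σ : Γ) : LinearMap.charpoly (ρ σ) = LinearMap.charpoly (ρ' σ) := by
  obtain ⟨L, hL, h1, h2⟩ := exists_common_level h h'
  refine forall_of_forall_frobenius L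
    (fun σ => LinearMap.charpoly (ρ σ) = LinearMap.charpoly (ρ' σ)) ?_ ?_ ?_ S hS heq σ
  · intro σ σ' hxy e
    rwa [apply_eq_of_eqOn ρ L h1 hxy, apply_eq_of_eqOn ρ' L h2 hxy]
  · intro g σ e
    rwa [charpoly_conj_eq hV, charpoly_conj_eq hW]
  · intro σ j e
    rw [map_pow, map_pow]
    exact charpoly_pow_eq hV hW e j

/-- Residual representations with the same Frobenius characteristic polynomials at almost all
primes have the same characteristic polynomials everywhere. -/
theorem residual_charpoly_eq_of_forall_frobenius {k : Type} [Field k]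
    (ρ ρ' : ResidualGaloisRep k) (S : Set ℕ) (hS : S.Finite)
    (heq : ∀ ℓ : ℕ, ℓ.Prime → ℓ ∉ S → ∀ A : ValuationSubring ℚbar, A.LiesOverPrime ℓ →
      ∀ τ : Γ, A.IsFrobeniusAt τ ℓ → LinearMap.charpoly (ρ.ρ τ) = LinearMap.charpoly (ρ'.ρ τ))
    (σ : Γ) : LinearMap.charpoly (ρ.ρ σ) = LinearMap.charpoly (ρ'.ρ σ) :=
  charpoly_eq_of_forall_frobenius ρ.finrank_eq ρ'.finrank_eq ρ.factorsThroughFiniteLevel
    ρ'.factorsThroughFiniteLevel S hS heq σ

section Adic

variable {A : Type} [CommRing A] [IsLocalRing A]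

/-- The reduction of an adic representation modulo `I`. -/
def reduceMod (ρ : GaloisRepAdic A) (I : Ideal A) :
    Γ →* Module.End (A ⧸ I) ((A ⧸ I) ⊗[A] ρ.V) :=
  (Module.End.baseChangeHom A (A ⧸ I) ρ.V).toMonoidHom.comp ρ.ρ

theorem reduceMod_apply (ρ : GaloisRepAdic A) (I : Ideal A) (σ : Γ) :
    reduceMod ρ I σ = (ρ.ρ σ).baseChange (A ⧸ I) := rfl

theorem reduceMod_factorsThroughFiniteLevel (ρ : GaloisRepAdic A) (n : ℕ) :
    GaloisFactorsThroughFiniteLevel (reduceMod ρ (IsLocalRing.maximalIdeal A ^ n)) := by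
  obtain ⟨L, hL, h1⟩ := ρ.isAdicContinuous n
  refine ⟨L, hL, fun σ hσ => ?_⟩
  set I := IsLocalRing.maximalIdeal A ^ n
  have hkill : ∀ x ∈ I • (⊤ : Submodule A ρ.V), ∀ c : A ⧸ I, c ⊗ₜ[A] x = 0 := by
    intro x hx c
    refine Submodule.smul_induction_on
      (p := fun x => c ⊗ₜ[A] x = (0 : (A ⧸ I) ⊗[A] ρ.V)) hx ?_ ?_
    · intro a ha w _
      rw [TensorProduct.tmul_smul, TensorProduct.smul_tmul', Algebra.smul_def,
        Ideal.Quotient.algebraMap_eq, Ideal.Quotient.eq_zero_iff_mem.2 ha, zero_mul,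
        TensorProduct.zero_tmul]
    · intro x y hx hy
      rw [TensorProduct.tmul_add, hx, hy, add_zero]
  refine LinearMap.ext fun w => ?_
  rw [reduceMod_apply]
  induction w using TensorProduct.induction_on with
  | zero => rw [map_zero, map_zero]
  | tmul c v =>
    rw [LinearMap.baseChange_tmul, Module.End.one_apply, ← sub_eq_zero, ← TensorProduct.tmul_sub]
    exact hkill _ (h1 σ hσ v) c
  | add x y hx hy => rw [map_add, map_add, hx, hy]

/-- Adic representations with the same Frobenius characteristic polynomials at almost all primes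
have the same characteristic polynomials everywhere. -/
theorem adic_charpoly_eq_of_forall_frobenius [IsHausdorff (IsLocalRing.maximalIdeal A) A]
    (ρ ρ' : GaloisRepAdic A) (S : Set ℕ) (hS : S.Finite)
    (heq : ∀ ℓ : ℕ, ℓ.Prime → ℓ ∉ S → ∀ P : ValuationSubring ℚbar, P.LiesOverPrime ℓ →
      ∀ τ : Γ, P.IsFrobeniusAt τ ℓ → LinearMap.charpoly (ρ.ρ τ) = LinearMap.charpoly (ρ'.ρ τ))
    (σ : Γ) : LinearMap.charpoly (ρ.ρ σ) = LinearMap.charpoly (ρ'.ρ σ) := by
  refine Polynomial.ext fun i => sub_eq_zero.1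
    (IsHausdorff.haus (I := IsLocalRing.maximalIdeal A) inferInstance _ fun n => ?_)
  rw [SModEq.zero, smul_eq_mul, Ideal.mul_top]
  refine Ideal.pow_le_pow_right (Nat.le_add_right n 1) ?_
  set I := IsLocalRing.maximalIdeal A ^ (n + 1)
  have : Nontrivial (A ⧸ I) := Ideal.Quotient.nontrivial_iff.2 fun htop =>
    (IsLocalRing.maximalIdeal.isMaximal A).ne_top
      (top_unique (htop ▸ Ideal.pow_le_self (Nat.succ_ne_zero n)))
  have h := charpoly_eq_of_forall_frobenius (R := A ⧸ I)
    (by rw [Module.finrank_baseChange, ρ.finrank_eq])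
    (by rw [Module.finrank_baseChange, ρ'.finrank_eq])
    (reduceMod_factorsThroughFiniteLevel ρ (n + 1))
    (reduceMod_factorsThroughFiniteLevel ρ' (n + 1)) S hS
    (fun ℓ hℓ hℓS P hP τ hτ => by
      rw [reduceMod_apply, reduceMod_apply, LinearMap.charpoly_baseChange,
        LinearMap.charpoly_baseChange, heq ℓ hℓ hℓS P hP τ hτ]) σ
  rw [reduceMod_apply, reduceMod_apply, LinearMap.charpoly_baseChange,
    LinearMap.charpoly_baseChange] at h
  have h' := congrArg (fun p : (A ⧸ I)[X] => p.coeff i) h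
  simp only [coeff_map, Ideal.Quotient.algebraMap_eq, Ideal.Quotient.eq] at h'
  exact h'

end Adic

end Fermat.Agent.Density
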