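import Fermat.Agent.Density.Splitting

/-!
# Frobenius' density theorem

In a Galois number field `L/ℚ`, every `σ` is conjugate to a power of a Frobenius element at
infinitely many primes; in fact `σ` and that Frobenius generate conjugate subgroups.
-/

noncomputable section

open NumberField Filter Topology
open scoped Pointwise

namespace Fermat.Agent.Density

variable {L : Type*} [Field L] [NumberField L] [IsGalois ℚ L]

theorem tendsto_log_sub_one : Tendsto (fun s : ℝ => Real.log (s - 1)) (𝓝[>] 1) atBot := by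
  refine Real.tendsto_log_nhdsGT_zero.comp (tendsto_nhdsWithin_iff.2 ⟨?_, ?_⟩)
  · have : Tendsto (fun s : ℝ => s - 1) (𝓝 1) (𝓝 (1 - 1)) :=
      (continuous_id.sub continuous_const).tendsto 1
    rw [sub_self] at this
    exact this.mono_left nhdsWithin_le_nhds
  · filter_upwards [self_mem_nhdsWithin] with s hs
    exact sub_pos.2 (Set.mem_Ioi.1 hs)

section Weights

/- `F` will be a choice of Frobenius element for each prime; `B` bounds the exceptional primes. -/
variable (B : ℕ) (F : Nat.Primes → (L ≃ₐ[ℚ] L))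

/-- `#{g : ⟨g F g⁻¹⟩ = H}` at good primes, `0` at the others. -/
def genWeight (H : Subgroup (L ≃ₐ[ℚ] L)) (p : Nat.Primes) : ℕ :=
  if (p : ℕ) ∣ B then 0
  else Nat.card {g : L ≃ₐ[ℚ] L // Subgroup.zpowers (g * F p * g⁻¹) = H}

/-- The Dirichlet series with coefficients `genWeight`. -/
def genSum (H : Subgroup (L ≃ₐ[ℚ] L)) (s : ℝ) : ℝ :=
  ∑' p : Nat.Primes, (genWeight B F H p : ℝ) * ((p : ℕ) : ℝ) ^ (-s)

omit [IsGalois ℚ L] in
theorem genWeight_le (H : Subgroup (L ≃ₐ[ℚ] L)) (p : Nat.Primes) :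
    genWeight B F H p ≤ Nat.card (L ≃ₐ[ℚ] L) := by
  unfold genWeight
  split_ifs
  · exact Nat.zero_le _
  · exact Nat.card_le_card_of_injective _ Subtype.val_injective

omit [IsGalois ℚ L] in
theorem summable_genWeight {s : ℝ} (hs : 1 < s) (H : Subgroup (L ≃ₐ[ℚ] L)) :
    Summable fun p : Nat.Primes => (genWeight B F H p : ℝ) * ((p : ℕ) : ℝ) ^ (-s) := by
  refine Summable.of_nonneg_of_le (fun p => mul_nonneg (Nat.cast_nonneg _)
    (Real.rpow_nonneg (Nat.cast_nonneg _) _)) (fun p => ?_)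
    ((Nat.Primes.summable_rpow.2 (neg_lt_neg hs)).mul_left (Nat.card (L ≃ₐ[ℚ] L) : ℝ))
  exact mul_le_mul_of_nonneg_right (by exact_mod_cast genWeight_le B F H p)
    (Real.rpow_nonneg (Nat.cast_nonneg _) _)

/-- Partition a finite type by the subgroup generated by the image of an element. -/
theorem sum_card_zpowers_eq {G : Type*} [Group G] [Finite G] [Fintype (Subgroup G)]
    [DecidableEq (Subgroup G)] {α : Type*} [Finite α] (f : α → G) (H : Subgroup G)
    [DecidablePred (· ≤ H)] :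
    ∑ C ∈ Finset.univ.filter (· ≤ H), Nat.card {a : α // Subgroup.zpowers (f a) = C} =
      Nat.card {a : α // f a ∈ H} := by
  have := Fintype.ofFinite α
  classical
  simp only [Nat.card_eq_fintype_card, Fintype.card_subtype]
  rw [Finset.card_eq_sum_card_fiberwise (f := fun a => Subgroup.zpowers (f a))
    (t := Finset.univ.filter (· ≤ H)) (s := Finset.univ.filter fun a => f a ∈ H)
    fun a ha => Finset.mem_filter.2 ⟨Finset.mem_univ _,
      Subgroup.zpowers_le.2 (Finset.mem_filter.1 ha).2⟩]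
  refine Finset.sum_congr rfl fun C hC => congrArg Finset.card ?_
  ext a
  simp only [Finset.mem_filter, Finset.mem_univ, true_and] at hC ⊢
  exact ⟨fun h => ⟨hC (h ▸ Subgroup.mem_zpowers _), h⟩, fun h => h.2⟩

/-- The sum over the good primes of degree one of the fixed field. -/
theorem eventually_abs_good_primeTerm_le (hB : B ≠ 0) (K : Type*) [Field K] [NumberField K] :
    ∃ C : ℝ, ∀ᶠ s in 𝓝[>] (1 : ℝ),
      |(∑' p : Nat.Primes, if (p : ℕ) ∣ B then 0 else primeTerm K s p) + Real.log (s - 1)| ≤ C := by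
  classical
  obtain ⟨C, hC⟩ := eventually_abs_primeTerm_add_log_le K
  have hfin : {p : Nat.Primes | (p : ℕ) ∣ B}.Finite :=
    ((Set.finite_le_nat B).preimage Subtype.val_injective.injOn).subset
      fun p hp => Nat.le_of_dvd (Nat.pos_of_ne_zero hB) hp
  refine ⟨C + hfin.toFinset.card * Module.finrank ℚ K, ?_⟩
  filter_upwards [hC, self_mem_nhdsWithin] with s hs hs1
  have hs1' : (1 : ℝ) < s := hs1
  have hsplit : ∑' p, primeTerm K s p =
      ∑ p ∈ hfin.toFinset, primeTerm K s p +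
        ∑' p : Nat.Primes, if (p : ℕ) ∣ B then 0 else primeTerm K s p := by
    rw [← (summable_primeTerm hs1').sum_add_tsum_compl (s := hfin.toFinset), tsum_subtype]
    congr 1
    refine tsum_congr fun p => ?_
    by_cases h : (p : ℕ) ∣ B <;> simp [h]
  have h0 : 0 ≤ ∑ p ∈ hfin.toFinset, primeTerm K s p :=
    Finset.sum_nonneg fun p _ => primeTerm_nonneg s p
  have h1 : ∑ p ∈ hfin.toFinset, primeTerm K s p ≤
      (hfin.toFinset.card * Module.finrank ℚ K : ℝ) := by
    refine (Finset.sum_le_card_nsmul _ _ (Module.finrank ℚ K : ℝ) fun p _ => ?_).trans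
      (le_of_eq (nsmul_eq_mul _ _))
    refine (mul_le_of_le_one_right (Nat.cast_nonneg _) ?_).trans
      (by exact_mod_cast normCount_prime_le (K := K) p.2)
    exact Real.rpow_le_one_of_one_le_of_nonpos (by exact_mod_cast p.2.one_le) (by linarith)
  have h2 := abs_le.1 hs
  rw [hsplit] at h2
  rw [abs_le]
  constructor <;> linarith [h2.1, h2.2]

variable {B F} {Q : Nat.Primes → Ideal (𝓞 L)} [hQ : ∀ p, (Q p).IsPrime]

theorem sum_genWeight_eq (hmem : ∀ p : Nat.Primes, ((p : ℕ) : 𝓞 L) ∈ Q p)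
    (hdet : ∀ p : Nat.Primes, ¬ (p : ℕ) ∣ B → DeterminedMod (Q p))
    (hF : ∀ p : Nat.Primes, FrobAt (Q p) p (F p)) [Fintype (Subgroup (L ≃ₐ[ℚ] L))]
    (H : Subgroup (L ≃ₐ[ℚ] L)) [DecidablePred (· ≤ H)] (p : Nat.Primes) :
    ∑ C ∈ Finset.univ.filter (· ≤ H), genWeight B F C p =
      if (p : ℕ) ∣ B then 0 else Nat.card H * normCount (IntermediateField.fixedField H) p := by
  classical
  unfold genWeight
  split_ifs with hp
  · exact Finset.sum_const_zero
  · rw [sum_card_zpowers_eq (fun g : L ≃ₐ[ℚ] L => g * F p * g⁻¹) H]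
    exact card_conj_mem_eq H p.2 (hmem p) (hdet p hp) (hF p)

/-- The asymptotics of the weights, for every subgroup. -/
theorem eventually_abs_genSum_le (hB : B ≠ 0) (hmem : ∀ p : Nat.Primes, ((p : ℕ) : 𝓞 L) ∈ Q p)
    (hdet : ∀ p : Nat.Primes, ¬ (p : ℕ) ∣ B → DeterminedMod (Q p))
    (hF : ∀ p : Nat.Primes, FrobAt (Q p) p (F p)) (H : Subgroup (L ≃ₐ[ℚ] L)) :
    ∃ C : ℝ, ∀ᶠ s in 𝓝[>] (1 : ℝ), |genSum B F H s +
      (Nat.card {g : L ≃ₐ[ℚ] L // Subgroup.zpowers g = H} : ℝ) * Real.log (s - 1)| ≤ C := by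
  classical
  have : Fintype (Subgroup (L ≃ₐ[ℚ] L)) := Fintype.ofFinite _
  induction H using WellFoundedLT.induction with
  | ind H ih =>
    set lo : Finset (Subgroup (L ≃ₐ[ℚ] L)) :=
      (Finset.univ.filter (· ≤ H)).erase H
    let T : Subgroup (L ≃ₐ[ℚ] L) → ℝ → ℝ := fun C s => genSum B F C s +
      (Nat.card {g : L ≃ₐ[ℚ] L // Subgroup.zpowers g = C} : ℝ) * Real.log (s - 1)
    have : ∀ C, ∃ c : ℝ, C ∈ lo → ∀ᶠ s in 𝓝[>] (1 : ℝ), |T C s| ≤ c := by
      intro C
      by_cases hC : C ∈ lo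
      · obtain ⟨hne, hle⟩ := Finset.mem_erase.1 hC
        obtain ⟨c, hc⟩ := ih C (lt_of_le_of_ne (Finset.mem_filter.1 hle).2 hne)
        exact ⟨c, fun _ => hc⟩
      · exact ⟨0, fun h => absurd h hC⟩
    choose c hc using this
    obtain ⟨C₀, hC₀⟩ :=
      eventually_abs_good_primeTerm_le B hB (IntermediateField.fixedField H)
    refine ⟨Nat.card H * C₀ + ∑ C ∈ lo, c C, ?_⟩
    filter_upwards [hC₀, (Filter.eventually_all_finset lo).2 hc, self_mem_nhdsWithin]
      with s hs hlo hs1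
    have hs1' : (1 : ℝ) < s := hs1
    have htot : ∑ C ∈ Finset.univ.filter (· ≤ H), T C s = (Nat.card H : ℝ) *
        ((∑' p : Nat.Primes, if (p : ℕ) ∣ B then 0
          else primeTerm (IntermediateField.fixedField H) s p) + Real.log (s - 1)) := by
      have hG : ∑ C ∈ Finset.univ.filter (· ≤ H),
          Nat.card {g : L ≃ₐ[ℚ] L // Subgroup.zpowers g = C} = Nat.card H :=
        sum_card_zpowers_eq (fun g : L ≃ₐ[ℚ] L => g) H
      simp only [T]
      rw [Finset.sum_add_distrib, ← Finset.sum_mul, ← Nat.cast_sum, hG, mul_add]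
      congr 1
      simp only [genSum]
      rw [← Summable.tsum_finsetSum fun C _ => summable_genWeight B F hs1' C, ← tsum_mul_left]
      refine tsum_congr fun p => ?_
      rw [← Finset.sum_mul, ← Nat.cast_sum, sum_genWeight_eq hmem hdet hF H p]
      split_ifs with hp
      · simp
      · simp [primeTerm, mul_assoc]
    have hsplit : T H s + ∑ C ∈ lo, T C s = ∑ C ∈ Finset.univ.filter (· ≤ H), T C s :=
      Finset.add_sum_erase _ (fun C => T C s)
        (Finset.mem_filter.2 ⟨Finset.mem_univ H, le_refl H⟩)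
    rw [← hsplit] at htot
    change |T H s| ≤ _
    rw [eq_sub_of_add_eq htot]
    refine (abs_sub _ _).trans (add_le_add ?_ ?_)
    · rw [abs_mul, Nat.abs_cast]
      exact mul_le_mul_of_nonneg_left hs (Nat.cast_nonneg _)
    · exact (Finset.abs_sum_le_sum_abs _ _).trans (Finset.sum_le_sum hlo)

end Weights

/-- **Frobenius' density theorem.** For every `σ` and every finite set `S` of primes, there is a
prime `ℓ ∉ S` with trivial inertia, every Frobenius above which has a power conjugate to `σ`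
(and generates a conjugate of `⟨σ⟩`). -/
theorem exists_prime_forall_frobAt (σ : L ≃ₐ[ℚ] L) (S : Finset ℕ) :
    ∃ ℓ : ℕ, ℓ.Prime ∧ ℓ ∉ S ∧ ∀ Q : Ideal (𝓞 L), Q.IsPrime → (ℓ : 𝓞 L) ∈ Q →
      DeterminedMod Q ∧ ∀ f : L ≃ₐ[ℚ] L, FrobAt Q ℓ f →
        ∃ g : L ≃ₐ[ℚ] L, Subgroup.zpowers (g * f * g⁻¹) = Subgroup.zpowers σ := by
  classical
  obtain ⟨B, hB, hBdet⟩ := exists_bad_modulus L
  choose Q hQ hmem using fun p : Nat.Primes => exists_prime_over L p.2
  choose F hF using fun p : Nat.Primes => exists_frobAt (hQ := hQ p) p.2 (hmem p)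
  set H := Subgroup.zpowers σ
  have hex : ∃ p : Nat.Primes, (p : ℕ) ∉ S ∧ genWeight B F H p ≠ 0 := by
    by_contra hc
    push Not at hc
    have hfin : {p : Nat.Primes | (p : ℕ) ∈ S}.Finite :=
      S.finite_toSet.preimage Subtype.val_injective.injOn
    obtain ⟨C, hC⟩ := eventually_abs_genSum_le (hQ := hQ) hB hmem
      (fun p hp => hBdet p (Q p) p.2 (hQ p) (hmem p) hp) hF H
    have hγ : (1 : ℝ) ≤ (Nat.card {g : L ≃ₐ[ℚ] L // Subgroup.zpowers g = H} : ℝ) := by
      have : Nonempty {g : L ≃ₐ[ℚ] L // Subgroup.zpowers g = H} := ⟨⟨σ, rfl⟩⟩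
      exact_mod_cast Nat.card_pos (α := {g : L ≃ₐ[ℚ] L // Subgroup.zpowers g = H})
    obtain ⟨s, hs, hlog, hs1⟩ := (hC.and ((tendsto_log_sub_one.eventually_le_atBot
      (-(|C| + hfin.toFinset.card * Nat.card (L ≃ₐ[ℚ] L) + 1))).and self_mem_nhdsWithin)).exists
    have hs1' : (1 : ℝ) < s := hs1
    have hbd : genSum B F H s ≤ hfin.toFinset.card * Nat.card (L ≃ₐ[ℚ] L) := by
      rw [genSum, tsum_eq_sum (s := hfin.toFinset) fun p hp => by
        rw [hc p (by simpa using hp), Nat.cast_zero, zero_mul]]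
      refine (Finset.sum_le_card_nsmul _ _ (Nat.card (L ≃ₐ[ℚ] L) : ℝ) fun p _ => ?_).trans
        (le_of_eq (nsmul_eq_mul _ _))
      refine (mul_le_of_le_one_right (Nat.cast_nonneg _) ?_).trans
        (by exact_mod_cast genWeight_le B F H p)
      exact Real.rpow_le_one_of_one_le_of_nonpos (by exact_mod_cast p.2.one_le) (by linarith)
    have h1 := (abs_le.1 hs).1
    have hC0 : (0 : ℝ) ≤ hfin.toFinset.card * Nat.card (L ≃ₐ[ℚ] L) := by positivity
    have h2 := le_abs_self C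
    have h3 := abs_nonneg C
    nlinarith
  obtain ⟨p, hpS, hp⟩ := hex
  unfold genWeight at hp
  split_ifs at hp with hpB
  · exact absurd rfl hp
  obtain ⟨⟨g, hg⟩⟩ := (Nat.card_ne_zero.1 hp).1
  refine ⟨p, p.2, hpS, fun Q' hQ' hmem' => ⟨hBdet p Q' p.2 hQ' hmem' hpB, fun f hf => ?_⟩⟩
  have := hQ p
  obtain ⟨u, rfl⟩ := exists_smul_eq p.2 (hmem p) hmem'
  obtain rfl : f = u * F p * u⁻¹ := hf.unique (hBdet p _ p.2 hQ' hmem' hpB) ((hF p).conj u)
  exact ⟨g * u⁻¹, by rw [← hg]; congr 1; group⟩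

end Fermat.Agent.Density
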