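import Mathlib

/-!
# Degree one primes of a number field

For a number field `K`, the Dirichlet series `∑ₚ #{I : NI = p} p⁻ˢ` over the rational primes
differs from `-log (s - 1)` by a bounded amount as `s → 1⁺`.
-/

noncomputable section

open Filter Topology NumberField UniqueFactorizationMonoid

namespace Fermat.Agent.Density

variable (K : Type*) [Field K] [NumberField K]

/-- The number of integral ideals of norm `n`. -/
def normCount (n : ℕ) : ℕ := Nat.card {I : Ideal (𝓞 K) // Ideal.absNorm I = n}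

variable {K}

theorem card_filter_absNorm_le_normCount (F : Finset (Ideal (𝓞 K))) (n : ℕ) :
    (F.filter fun I => Ideal.absNorm I = n).card ≤ normCount K n := by
  have : Finite {I : Ideal (𝓞 K) // Ideal.absNorm I = n} :=
    (Ideal.finite_setOfPred_absNorm_eq n).to_subtype
  rw [← Nat.card_eq_finsetCard]
  refine Nat.card_le_card_of_injective
    (fun I => (⟨I.1, (Finset.mem_filter.1 I.2).2⟩ : {I : Ideal (𝓞 K) // Ideal.absNorm I = n})) ?_
  intro I J h
  exact Subtype.ext (congrArg (fun x : {I : Ideal (𝓞 K) // Ideal.absNorm I = n} => x.1) h)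

theorem ne_bot_of_absNorm_eq {P : Ideal (𝓞 K)} {p : ℕ} (hp : p ≠ 0)
    (h : Ideal.absNorm P = p) : P ≠ ⊥ := by
  rintro rfl
  simp [eq_comm, hp] at h

theorem natCast_mem_of_absNorm_eq {P : Ideal (𝓞 K)} {p : ℕ}
    (h : Ideal.absNorm P = p) : (p : 𝓞 K) ∈ P := h ▸ P.absNorm_mem

theorem isPrime_of_absNorm_eq_prime {P : Ideal (𝓞 K)} {p : ℕ} (hp : p.Prime)
    (h : Ideal.absNorm P = p) : P.IsPrime :=
  Ideal.isPrime_of_irreducible_absNorm (by rw [h]; exact hp)

/-- The residue characteristic of a nonzero prime. -/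
theorem exists_absNorm_eq_prime_pow {P : Ideal (𝓞 K)} (hP : P.IsPrime) (h0 : P ≠ ⊥) :
    ∃ p n : ℕ, p.Prime ∧ 0 < n ∧ (p : 𝓞 K) ∈ P ∧ Ideal.absNorm P = p ^ n := by
  have : P.IsMaximal := hP.isMaximal h0
  obtain ⟨p, n, hn, hmem, hp, h⟩ := Ideal.exists_prime_and_absNorm_eq_pow P
  exact ⟨p, n, hp, hn, hmem, h⟩

theorem absNorm_eq_pow_of_natCast_mem {P : Ideal (𝓞 K)} {p : ℕ} (hp : p.Prime) (hP : P.IsPrime)
    (hmem : (p : 𝓞 K) ∈ P) : ∃ n, 0 < n ∧ Ideal.absNorm P = p ^ n := by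
  have hd : Ideal.absNorm P ∣ Ideal.absNorm (Ideal.span {(p : 𝓞 K)}) :=
    Ideal.absNorm_dvd_absNorm_of_le ((Ideal.span_singleton_le_iff_mem _).2 hmem)
  rw [Ideal.absNorm_span_natCast] at hd
  obtain ⟨n, -, hn⟩ := (Nat.dvd_prime_pow hp).1 hd
  refine ⟨n, Nat.pos_of_ne_zero ?_, hn⟩
  rintro rfl
  exact hP.ne_top (Ideal.absNorm_eq_one_iff.1 (by simpa using hn))

/-- At most `[K : ℚ]` primes contain a given rational prime. -/
theorem card_primes_over_le {p : ℕ} (hp : p.Prime) (T : Finset (Ideal (𝓞 K)))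
    (hT : ∀ P ∈ T, P.IsPrime ∧ (p : 𝓞 K) ∈ P) : T.card ≤ Module.finrank ℚ K := by
  have hne : ∀ P ∈ T, P ≠ ⊥ := by
    intro P hP h
    have := (hT P hP).2
    rw [h, Ideal.mem_bot, Nat.cast_eq_zero] at this
    exact hp.ne_zero this
  have hdvd : ∏ P ∈ T, P ∣ Ideal.span {(p : 𝓞 K)} :=
    Finset.prod_primes_dvd _ (fun P hP => Ideal.prime_of_isPrime (hne P hP) (hT P hP).1)
      (fun P hP => Ideal.dvd_iff_le.2 ((Ideal.span_singleton_le_iff_mem _).2 (hT P hP).2))
  have hd : Ideal.absNorm (∏ P ∈ T, P) ∣ Ideal.absNorm (Ideal.span {(p : 𝓞 K)}) :=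
    map_dvd _ hdvd
  rw [Ideal.absNorm_span_natCast, map_prod, RingOfIntegers.rank] at hd
  have h1 : p ^ T.card ≤ ∏ P ∈ T, Ideal.absNorm P := by
    rw [← Finset.prod_const]
    refine Finset.prod_le_prod' fun P hP => ?_
    obtain ⟨n, hn, h⟩ := absNorm_eq_pow_of_natCast_mem hp (hT P hP).1 (hT P hP).2
    rw [h]
    exact Nat.le_self_pow hn.ne' p
  exact (Nat.pow_le_pow_iff_right hp.one_lt).1
    (h1.trans (Nat.le_of_dvd (pow_pos hp.pos _) hd))

theorem normCount_prime_le {p : ℕ} (hp : p.Prime) :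
    normCount K p ≤ Module.finrank ℚ K := by
  classical
  have hfin := Ideal.finite_setOfPred_absNorm_eq (S := 𝓞 K) p
  refine le_trans (le_of_eq ?_) (card_primes_over_le hp hfin.toFinset ?_)
  · exact Nat.card_eq_card_finite_toFinset hfin
  · intro P hP
    have h : Ideal.absNorm P = p := hfin.mem_toFinset.1 hP
    exact ⟨isPrime_of_absNorm_eq_prime hp h, natCast_mem_of_absNorm_eq h⟩

/-- `I ↦ (NI)⁻ˢ`. -/
def idealWeight (s : ℝ) (I : Ideal (𝓞 K)) : ℝ := (Ideal.absNorm I : ℝ) ^ (-s)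

/-- The terms of the Dedekind zeta function at a real argument. -/
def zetaTerm (K : Type*) [Field K] [NumberField K] (s : ℝ) (n : ℕ) : ℝ :=
  normCount K n * (n : ℝ) ^ (-s)

/-- The terms of the sum over primes of degree one. -/
def primeTerm (K : Type*) [Field K] [NumberField K] (s : ℝ) (p : Nat.Primes) : ℝ :=
  normCount K p * ((p : ℕ) : ℝ) ^ (-s)

/-- `∑_p p⁻²`. -/
def primeSqSum : ℝ := ∑' p : Nat.Primes, ((p : ℕ) : ℝ) ^ (-(2 : ℝ))

theorem summable_primeSq : Summable fun p : Nat.Primes => ((p : ℕ) : ℝ) ^ (-(2 : ℝ)) :=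
  Nat.Primes.summable_rpow.2 (by norm_num)

theorem primeTerm_nonneg (s : ℝ) (p : Nat.Primes) : 0 ≤ primeTerm K s p :=
  mul_nonneg (Nat.cast_nonneg _) (Real.rpow_nonneg (Nat.cast_nonneg _) _)

theorem zetaTerm_nonneg (s : ℝ) (n : ℕ) : 0 ≤ zetaTerm K s n :=
  mul_nonneg (Nat.cast_nonneg _) (Real.rpow_nonneg (Nat.cast_nonneg _) _)

theorem summable_primeTerm {s : ℝ} (hs : 1 < s) : Summable (primeTerm K s) := by
  refine Summable.of_nonneg_of_le (primeTerm_nonneg s) (fun p => ?_)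
    ((Nat.Primes.summable_rpow.2 (neg_lt_neg hs)).mul_left (Module.finrank ℚ K : ℝ))
  exact mul_le_mul_of_nonneg_right (by exact_mod_cast normCount_prime_le p.2)
    (Real.rpow_nonneg (Nat.cast_nonneg _) _)

theorem idealWeight_nonneg (s : ℝ) (I : Ideal (𝓞 K)) : 0 ≤ idealWeight s I :=
  Real.rpow_nonneg (Nat.cast_nonneg _) _

theorem idealWeight_le_one {s : ℝ} (hs : 0 < s) (I : Ideal (𝓞 K)) : idealWeight s I ≤ 1 := by
  rcases Nat.eq_zero_or_pos (Ideal.absNorm I) with h | h
  · rw [idealWeight, h, Nat.cast_zero, Real.zero_rpow (by linarith)]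
    exact zero_le_one
  · exact Real.rpow_le_one_of_one_le_of_nonpos (by exact_mod_cast h) (by linarith)

theorem idealWeight_prod (s : ℝ) {ι : Type*} (T : Finset ι) (f : ι → Ideal (𝓞 K)) :
    idealWeight s (∏ i ∈ T, f i) = ∏ i ∈ T, idealWeight s (f i) := by
  unfold idealWeight
  rw [map_prod, Nat.cast_prod, Real.finsetProd_rpow _ _ fun i _ => Nat.cast_nonneg _]

theorem idealWeight_pow (s : ℝ) (I : Ideal (𝓞 K)) (n : ℕ) :
    idealWeight s (I ^ n) = idealWeight s I ^ n := by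
  unfold idealWeight
  rw [map_pow, Nat.cast_pow, ← Real.rpow_natCast (n := n), ← Real.rpow_natCast (n := n),
    ← Real.rpow_mul (Nat.cast_nonneg _), ← Real.rpow_mul (Nat.cast_nonneg _), mul_comm]

theorem idealWeight_prime_le_half {s : ℝ} (hs : 1 < s) {P : Ideal (𝓞 K)} (hP : P.IsPrime)
    (h0 : P ≠ ⊥) : idealWeight s P ≤ 1 / 2 := by
  obtain ⟨p, n, hp, hn, -, h⟩ := exists_absNorm_eq_prime_pow hP h0
  have h2 : (2 : ℝ) ≤ (Ideal.absNorm P : ℝ) := by
    exact_mod_cast h ▸ hp.two_le.trans (Nat.le_self_pow hn.ne' p)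
  calc idealWeight s P ≤ (Ideal.absNorm P : ℝ) ^ (-1 : ℝ) :=
        Real.rpow_le_rpow_of_exponent_le (by linarith) (by linarith)
    _ ≤ 1 / 2 := by
        rw [Real.rpow_neg_one, one_div]
        exact inv_anti₀ two_pos h2

/-- A finite sum over primes is at most a multiple of `∑ p⁻²`. -/
theorem sum_idealWeight_le_primeSq (T : Finset (Ideal (𝓞 K)))
    (hT : ∀ P ∈ T, P.IsPrime ∧ P ≠ ⊥) (g : Ideal (𝓞 K) → ℝ)
    (hg : ∀ P ∈ T, ∀ p : ℕ, p.Prime → (p : 𝓞 K) ∈ P → g P ≤ (p : ℝ) ^ (-(2 : ℝ))) :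
    ∑ P ∈ T, g P ≤ Module.finrank ℚ K * primeSqSum := by
  classical
  have : ∀ P : Ideal (𝓞 K), ∃ p : Nat.Primes, P ∈ T → ((p : ℕ) : 𝓞 K) ∈ P := by
    intro P
    by_cases hP : P ∈ T
    · obtain ⟨p, n, hp, -, hmem, -⟩ := exists_absNorm_eq_prime_pow (hT P hP).1 (hT P hP).2
      exact ⟨⟨p, hp⟩, fun _ => hmem⟩
    · exact ⟨⟨2, Nat.prime_two⟩, fun h => absurd h hP⟩
  choose π hπ using this
  rw [← Finset.sum_fiberwise_of_maps_to (g := π) (t := T.image π)
    (fun P hP => Finset.mem_image_of_mem π hP)]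
  calc ∑ q ∈ T.image π, ∑ P ∈ T.filter (fun P => π P = q), g P
      ≤ ∑ q ∈ T.image π, (Module.finrank ℚ K : ℝ) * ((q : ℕ) : ℝ) ^ (-(2 : ℝ)) := by
        refine Finset.sum_le_sum fun q _ => ?_
        refine (Finset.sum_le_card_nsmul _ _ (((q : ℕ) : ℝ) ^ (-(2 : ℝ))) fun P hP => ?_).trans ?_
        · obtain ⟨hP', rfl⟩ := Finset.mem_filter.1 hP
          exact hg P hP' _ (π P).2 (hπ P hP')
        · rw [nsmul_eq_mul]
          refine mul_le_mul_of_nonneg_right ?_ (Real.rpow_nonneg (Nat.cast_nonneg _) _)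
          exact_mod_cast card_primes_over_le q.2 _ fun P hP => by
            obtain ⟨hP', rfl⟩ := Finset.mem_filter.1 hP
            exact ⟨(hT P hP').1, hπ P hP'⟩
    _ ≤ _ := by
        rw [← Finset.mul_sum]
        exact mul_le_mul_of_nonneg_left
          (summable_primeSq.sum_le_tsum _ fun p _ => Real.rpow_nonneg (Nat.cast_nonneg _) _)
          (Nat.cast_nonneg _)

theorem sum_idealWeight_sq_le {s : ℝ} (hs : 1 < s) (T : Finset (Ideal (𝓞 K)))
    (hT : ∀ P ∈ T, P.IsPrime ∧ P ≠ ⊥) :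
    ∑ P ∈ T, idealWeight s P ^ 2 ≤ Module.finrank ℚ K * primeSqSum := by
  refine sum_idealWeight_le_primeSq T hT _ fun P hP p hp hmem => ?_
  obtain ⟨n, hn, h⟩ := absNorm_eq_pow_of_natCast_mem hp (hT P hP).1 hmem
  unfold idealWeight
  rw [h, Nat.cast_pow, ← Real.rpow_natCast (n := n), ← Real.rpow_mul (Nat.cast_nonneg _),
    ← Real.rpow_natCast (n := 2), ← Real.rpow_mul (Nat.cast_nonneg _)]
  refine Real.rpow_le_rpow_of_exponent_le (by exact_mod_cast hp.one_le) ?_
  have : (1 : ℝ) ≤ n := by exact_mod_cast hn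
  push_cast
  nlinarith

theorem sum_idealWeight_le {s : ℝ} (hs : 1 < s) (T : Finset (Ideal (𝓞 K)))
    (hT : ∀ P ∈ T, P.IsPrime ∧ P ≠ ⊥) :
    ∑ P ∈ T, idealWeight s P ≤
      ∑' p, primeTerm K s p + Module.finrank ℚ K * primeSqSum := by
  classical
  rw [← Finset.sum_filter_add_sum_filter_not T fun P => (Ideal.absNorm P).Prime]
  gcongr
  · set T₁ := T.filter fun P => (Ideal.absNorm P).Prime
    let π : Ideal (𝓞 K) → Nat.Primes := fun P =>
      if h : (Ideal.absNorm P).Prime then ⟨_, h⟩ else ⟨2, Nat.prime_two⟩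
    have hπ : ∀ P ∈ T₁, (π P : ℕ) = Ideal.absNorm P := fun P hP => by
      simp [π, (Finset.mem_filter.1 hP).2]
    rw [← Finset.sum_fiberwise_of_maps_to (g := π) (t := T₁.image π)
      (fun P hP => Finset.mem_image_of_mem π hP)]
    refine le_trans (Finset.sum_le_sum fun q _ => ?_)
      ((summable_primeTerm hs).sum_le_tsum _ fun p _ => primeTerm_nonneg s p)
    refine (Finset.sum_le_card_nsmul _ _ (((q : ℕ) : ℝ) ^ (-s)) fun P hP => ?_).trans ?_
    · obtain ⟨hP', rfl⟩ := Finset.mem_filter.1 hP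
      rw [idealWeight, hπ P hP']
    · rw [nsmul_eq_mul]
      refine mul_le_mul_of_nonneg_right ?_ (Real.rpow_nonneg (Nat.cast_nonneg _) _)
      refine Nat.cast_le.2 (le_trans (Finset.card_le_card ?_)
        (card_filter_absNorm_le_normCount T₁ q))
      intro P hP
      obtain ⟨hP', rfl⟩ := Finset.mem_filter.1 hP
      exact Finset.mem_filter.2 ⟨hP', (hπ P hP').symm⟩
  · refine sum_idealWeight_le_primeSq _ (fun P hP => hT P (Finset.mem_filter.1 hP).1) _ ?_
    intro P hP p hp hmem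
    obtain ⟨hP, hnp⟩ := Finset.mem_filter.1 hP
    obtain ⟨n, hn, h⟩ := absNorm_eq_pow_of_natCast_mem hp (hT P hP).1 hmem
    have hn2 : 2 ≤ n := by
      by_contra hlt
      obtain rfl : n = 1 := by omega
      exact hnp (by rw [h, pow_one]; exact hp)
    unfold idealWeight
    rw [h, Nat.cast_pow, ← Real.rpow_natCast (n := n), ← Real.rpow_mul (Nat.cast_nonneg _)]
    refine Real.rpow_le_rpow_of_exponent_le (by exact_mod_cast hp.one_le) ?_
    have : (2 : ℝ) ≤ n := by exact_mod_cast hn2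
    nlinarith

/-- A finite sum over ideals is bounded by the exponential of the sum over primes of degree
one. -/
theorem sum_idealWeight_ideals_le {s : ℝ} (hs : 1 < s) (F : Finset (Ideal (𝓞 K)))
    (hF : ∀ I ∈ F, I ≠ ⊥) :
    ∑ I ∈ F, idealWeight s I ≤
      Real.exp (∑' p, primeTerm K s p + 3 * (Module.finrank ℚ K * primeSqSum)) := by
  classical
  set T : Finset (Ideal (𝓞 K)) := F.biUnion fun I => (normalizedFactors I).toFinset
  have hT : ∀ P ∈ T, P.IsPrime ∧ P ≠ ⊥ := by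
    intro P hP
    obtain ⟨I, -, hPI⟩ := Finset.mem_biUnion.1 hP
    have := prime_of_normalized_factor P (Multiset.mem_toFinset.1 hPI)
    exact ⟨Ideal.isPrime_of_prime this, this.ne_zero⟩
  set M : ℕ := F.sup fun I => Multiset.card (normalizedFactors I)
  let e : Ideal (𝓞 K) → (T → ℕ) := fun I P => (normalizedFactors I).count (P : Ideal (𝓞 K))
  let w : (T → ℕ) → ℝ := fun f => ∏ P : T, idealWeight s (P : Ideal (𝓞 K)) ^ f P
  have hprod : ∀ I ∈ F, ∏ P : T, (P : Ideal (𝓞 K)) ^ e I P = I := by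
    intro I hI
    rw [Finset.univ_eq_attach, Finset.prod_attach T fun P => P ^ (normalizedFactors I).count P]
    conv_rhs => rw [← associated_iff_eq.1 (prod_normalizedFactors (hF I hI)),
      Finset.prod_multiset_count]
    exact (Finset.prod_subset (fun P hP => Finset.mem_biUnion.2 ⟨I, hI, hP⟩) fun P _ hP => by
      rw [Multiset.count_eq_zero.2 (fun h => hP (Multiset.mem_toFinset.2 h)), pow_zero]).symm
  have hinj : Set.InjOn e (F : Set (Ideal (𝓞 K))) := by
    intro I hI J hJ h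
    rw [← hprod I hI, ← hprod J hJ, h]
  have hw : ∀ I ∈ F, idealWeight s I = w (e I) := by
    intro I hI
    conv_lhs => rw [← hprod I hI]
    rw [idealWeight_prod]
    exact Finset.prod_congr rfl fun P _ => idealWeight_pow s _ _
  rw [Finset.sum_congr rfl hw, ← Finset.sum_image (f := w) hinj]
  calc ∑ f ∈ F.image e, w f
      ≤ ∑ f ∈ Fintype.piFinset fun _ : T => Finset.range (M + 1), w f := by
        refine Finset.sum_le_sum_of_subset_of_nonneg ?_ fun f _ _ =>
          Finset.prod_nonneg fun P _ => pow_nonneg (idealWeight_nonneg _ _) _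
        intro f hf
        obtain ⟨I, hI, rfl⟩ := Finset.mem_image.1 hf
        refine Fintype.mem_piFinset.2 fun P => Finset.mem_range.2 (Nat.lt_succ_of_le ?_)
        exact (Multiset.count_le_card _ _).trans
          (Finset.le_sup (f := fun I => Multiset.card (normalizedFactors I)) hI)
    _ = ∏ P : T, ∑ k ∈ Finset.range (M + 1), idealWeight s (P : Ideal (𝓞 K)) ^ k :=
        (Finset.prod_univ_sum _ _).symm
    _ ≤ ∏ P : T, Real.exp (idealWeight s (P : Ideal (𝓞 K)) +
          2 * idealWeight s (P : Ideal (𝓞 K)) ^ 2) := by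
        refine Finset.prod_le_prod
          (fun P _ => Finset.sum_nonneg fun k _ => pow_nonneg (idealWeight_nonneg _ _) _)
          fun P _ => ?_
        set x := idealWeight s (P : Ideal (𝓞 K))
        have hx0 : 0 ≤ x := idealWeight_nonneg _ _
        have hx : x ≤ 1 / 2 := idealWeight_prime_le_half hs (hT _ P.2).1 (hT _ P.2).2
        have h1 := geom_sum_mul x (M + 1)
        have h2 : (0 : ℝ) ≤ x ^ (M + 1) := pow_nonneg hx0 _
        have h3 := Real.add_one_le_exp (x + 2 * x ^ 2)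
        have h4 : 0 ≤ ∑ k ∈ Finset.range (M + 1), x ^ k :=
          Finset.sum_nonneg fun k _ => pow_nonneg hx0 _
        have h5 : 1 ≤ (x + 2 * x ^ 2 + 1) * (1 - x) := by nlinarith
        calc ∑ k ∈ Finset.range (M + 1), x ^ k
            = (∑ k ∈ Finset.range (M + 1), x ^ k) * 1 := (mul_one _).symm
          _ ≤ (∑ k ∈ Finset.range (M + 1), x ^ k) * ((x + 2 * x ^ 2 + 1) * (1 - x)) :=
              mul_le_mul_of_nonneg_left h5 h4
          _ = (1 - x ^ (M + 1)) * (x + 2 * x ^ 2 + 1) := by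
            linear_combination -(x + 2 * x ^ 2 + 1) * h1
          _ ≤ 1 * (x + 2 * x ^ 2 + 1) := by gcongr; nlinarith
          _ ≤ _ := by linarith
    _ = Real.exp (∑ P ∈ T, idealWeight s P + 2 * ∑ P ∈ T, idealWeight s P ^ 2) := by
        rw [← Real.exp_sum, Finset.sum_add_distrib, ← Finset.mul_sum,
          Finset.sum_coe_sort T (fun P => idealWeight s P),
          Finset.sum_coe_sort T (fun P => idealWeight s P ^ 2)]
    _ ≤ _ := by
        refine Real.exp_le_exp.2 ?_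
        have := sum_idealWeight_le hs T hT
        have := sum_idealWeight_sq_le hs T hT
        linarith

theorem sum_zetaTerm_le {s : ℝ} (hs : 1 < s) (S : Finset ℕ) :
    ∑ n ∈ S, zetaTerm K s n ≤
      Real.exp (∑' p, primeTerm K s p + 3 * (Module.finrank ℚ K * primeSqSum)) := by
  classical
  let fib : ℕ → Finset (Ideal (𝓞 K)) := fun n =>
    (Ideal.finite_setOfPred_absNorm_eq (S := 𝓞 K) n).toFinset
  have hfib : ∀ n I, I ∈ fib n ↔ Ideal.absNorm I = n := fun n I => by simp [fib]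
  rw [← Finset.sum_erase S (a := 0) (by simp [zetaTerm, Real.zero_rpow (by linarith : -s ≠ 0)])]
  refine le_trans (le_of_eq ?_) (sum_idealWeight_ideals_le hs ((S.erase 0).biUnion fib) ?_)
  · rw [Finset.sum_biUnion]
    · refine Finset.sum_congr rfl fun n _ => ?_
      rw [Finset.sum_congr rfl (g := fun _ => (n : ℝ) ^ (-s))
        (fun I hI => by rw [idealWeight, (hfib n I).1 hI]), Finset.sum_const, nsmul_eq_mul]
      unfold zetaTerm
      congr 1
      exact congrArg (Nat.cast : ℕ → ℝ) (Nat.card_eq_card_finite_toFinset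
        (Ideal.finite_setOfPred_absNorm_eq (S := 𝓞 K) n))
    · intro m _ n _ hmn
      rw [Function.onFun, Finset.disjoint_left]
      intro I hm hn
      exact hmn (((hfib m I).1 hm).symm.trans ((hfib n I).1 hn))
  · intro I hI
    obtain ⟨n, hn, hIn⟩ := Finset.mem_biUnion.1 hI
    exact ne_bot_of_absNorm_eq (Finset.mem_erase.1 hn).1 ((hfib n I).1 hIn)

theorem summable_zetaTerm {s : ℝ} (hs : 1 < s) : Summable (zetaTerm K s) :=
  summable_of_sum_le (zetaTerm_nonneg s) (sum_zetaTerm_le hs)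

theorem tsum_zetaTerm_le {s : ℝ} (hs : 1 < s) :
    ∑' n, zetaTerm K s n ≤
      Real.exp (∑' p, primeTerm K s p + 3 * (Module.finrank ℚ K * primeSqSum)) :=
  Real.tsum_le_of_sum_le (zetaTerm_nonneg s) (sum_zetaTerm_le hs)

theorem sum_idealWeight_le_tsum_zetaTerm {s : ℝ} (hs : 1 < s) (F : Finset (Ideal (𝓞 K))) :
    ∑ I ∈ F, idealWeight s I ≤ ∑' n, zetaTerm K s n := by
  classical
  rw [← Finset.sum_fiberwise_of_maps_to (g := fun I => Ideal.absNorm I)
    (t := F.image fun I => Ideal.absNorm I) (fun I hI => Finset.mem_image_of_mem _ hI)]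
  refine le_trans (Finset.sum_le_sum fun n _ => ?_)
    ((summable_zetaTerm hs).sum_le_tsum _ fun n _ => zetaTerm_nonneg s n)
  refine (Finset.sum_le_card_nsmul _ _ ((n : ℝ) ^ (-s)) fun I hI => ?_).trans ?_
  · rw [idealWeight, (Finset.mem_filter.1 hI).2]
  · rw [nsmul_eq_mul]
    exact mul_le_mul_of_nonneg_right (by exact_mod_cast card_filter_absNorm_le_normCount F n)
      (Real.rpow_nonneg (Nat.cast_nonneg _) _)

theorem one_le_tsum_zetaTerm {s : ℝ} (hs : 1 < s) : 1 ≤ ∑' n, zetaTerm K s n := by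
  simpa [idealWeight] using sum_idealWeight_le_tsum_zetaTerm hs {(⊤ : Ideal (𝓞 K))}

theorem prod_one_add_idealWeight_le {s : ℝ} (hs : 1 < s) (T : Finset (Ideal (𝓞 K)))
    (hT : ∀ P ∈ T, P.IsPrime ∧ P ≠ ⊥) :
    ∏ P ∈ T, (1 + idealWeight s P) ≤ ∑' n, zetaTerm K s n := by
  classical
  have hnf : ∀ U ∈ T.powerset, normalizedFactors (∏ P ∈ U, P) = U.val := by
    intro U hU
    have h := normalizedFactors_prod_of_prime (m := U.val) fun p hp =>
      Ideal.prime_of_isPrime (hT p (Finset.mem_powerset.1 hU hp)).2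
        (hT p (Finset.mem_powerset.1 hU hp)).1
    rwa [Finset.prod_val] at h
  have hinj : Set.InjOn (fun U : Finset (Ideal (𝓞 K)) => ∏ P ∈ U, P)
      (T.powerset : Set (Finset (Ideal (𝓞 K)))) := by
    intro U hU V hV h
    apply Finset.val_inj.1
    rw [← hnf U hU, ← hnf V hV]
    exact congrArg normalizedFactors h
  rw [Finset.prod_one_add,
    Finset.sum_congr rfl fun U _ => (idealWeight_prod s U fun P => P).symm,
    ← Finset.sum_image (f := idealWeight s) hinj]
  exact sum_idealWeight_le_tsum_zetaTerm hs _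

theorem tsum_primeTerm_le {s : ℝ} (hs : 1 < s) :
    ∑' p, primeTerm K s p ≤
      Real.log (∑' n, zetaTerm K s n) + Module.finrank ℚ K * primeSqSum := by
  classical
  refine Real.tsum_le_of_sum_le (primeTerm_nonneg s) fun S => ?_
  let fib : Nat.Primes → Finset (Ideal (𝓞 K)) := fun p =>
    (Ideal.finite_setOfPred_absNorm_eq (S := 𝓞 K) (p : ℕ)).toFinset
  have hfib : ∀ p I, I ∈ fib p ↔ Ideal.absNorm I = (p : ℕ) := fun p I => by simp [fib]
  set T := S.biUnion fib
  have hT : ∀ P ∈ T, P.IsPrime ∧ P ≠ ⊥ := by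
    intro P hP
    obtain ⟨p, -, hp⟩ := Finset.mem_biUnion.1 hP
    exact ⟨isPrime_of_absNorm_eq_prime p.2 ((hfib p P).1 hp),
      ne_bot_of_absNorm_eq p.2.ne_zero ((hfib p P).1 hp)⟩
  have hsum : ∑ p ∈ S, primeTerm K s p = ∑ P ∈ T, idealWeight s P := by
    rw [Finset.sum_biUnion]
    · refine Finset.sum_congr rfl fun p _ => ?_
      rw [Finset.sum_congr rfl (g := fun _ => ((p : ℕ) : ℝ) ^ (-s))
        (fun I hI => by rw [idealWeight, (hfib p I).1 hI]), Finset.sum_const, nsmul_eq_mul]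
      unfold primeTerm
      congr 1
      exact congrArg (Nat.cast : ℕ → ℝ) (Nat.card_eq_card_finite_toFinset
        (Ideal.finite_setOfPred_absNorm_eq (S := 𝓞 K) (p : ℕ)))
    · intro p _ q _ hpq
      rw [Function.onFun, Finset.disjoint_left]
      intro I hp hq
      exact hpq (Subtype.ext (((hfib p I).1 hp).symm.trans ((hfib q I).1 hq)))
  have h1 : Real.exp (∑ P ∈ T, (idealWeight s P - idealWeight s P ^ 2)) ≤
      ∑' n, zetaTerm K s n := by
    rw [Real.exp_sum]
    refine le_trans (Finset.prod_le_prod (fun P _ => (Real.exp_pos _).le) fun P _ => ?_)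
      (prod_one_add_idealWeight_le hs T hT)
    set x := idealWeight s P
    have hx0 : 0 ≤ x := idealWeight_nonneg _ _
    have h3 := Real.add_one_le_exp (x ^ 2 - x)
    have h6 : Real.exp (x - x ^ 2) * Real.exp (x ^ 2 - x) = 1 := by
      rw [← Real.exp_add]; simp
    have h7 := (Real.exp_pos (x - x ^ 2)).le
    have h8 : 1 ≤ (1 + x) * (x ^ 2 - x + 1) := by nlinarith [pow_nonneg hx0 3]
    calc Real.exp (x - x ^ 2) = Real.exp (x - x ^ 2) * 1 := (mul_one _).symm
      _ ≤ Real.exp (x - x ^ 2) * ((1 + x) * (x ^ 2 - x + 1)) := mul_le_mul_of_nonneg_left h8 h7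
      _ ≤ Real.exp (x - x ^ 2) * ((1 + x) * Real.exp (x ^ 2 - x)) := by gcongr
      _ = 1 + x := by linear_combination (1 + x) * h6
  have h2 := (Real.le_log_iff_exp_le (by linarith [one_le_tsum_zetaTerm (K := K) hs])).2 h1
  rw [Finset.sum_sub_distrib] at h2
  linarith [sum_idealWeight_sq_le hs T hT]

theorem tsum_zetaTerm_eq_re {s : ℝ} (hs : 1 < s) :
    ∑' n, zetaTerm K s n = (dedekindZeta K (s : ℂ)).re := by
  have h : dedekindZeta K (s : ℂ) = ((∑' n, zetaTerm K s n : ℝ) : ℂ) := by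
    rw [Complex.ofReal_tsum]
    refine tsum_congr fun n => ?_
    rcases eq_or_ne n 0 with rfl | hn
    · simp [zetaTerm, Real.zero_rpow (by linarith : -s ≠ 0)]
    · rw [LSeries.term_of_ne_zero hn, zetaTerm, normCount, Complex.ofReal_mul,
        Complex.ofReal_cpow (Nat.cast_nonneg _), Complex.ofReal_neg, Complex.ofReal_natCast,
        Complex.ofReal_natCast, Complex.cpow_neg, div_eq_mul_inv]
  rw [h, Complex.ofReal_re]

variable (K) in
/-- The sum over the primes of degree one is `-log (s - 1) + O(1)`. -/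
theorem eventually_abs_primeTerm_add_log_le :
    ∃ C : ℝ, ∀ᶠ s in 𝓝[>] (1 : ℝ), |∑' p, primeTerm K s p + Real.log (s - 1)| ≤ C := by
  set ρ := dedekindZeta_residue K
  have hρ : 0 < ρ := dedekindZeta_residue_pos K
  have hlim : Tendsto (fun s : ℝ => Real.log ((s - 1) * ∑' n, zetaTerm K s n)) (𝓝[>] 1)
      (𝓝 (Real.log ρ)) := by
    refine (Real.continuousAt_log hρ.ne').tendsto.comp ?_
    have := (Complex.continuous_re.tendsto _).comp (tendsto_sub_one_mul_dedekindZeta_nhdsGT K)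
    rw [Complex.ofReal_re] at this
    refine this.congr' ?_
    filter_upwards [self_mem_nhdsWithin] with s hs
    simp [tsum_zetaTerm_eq_re (K := K) hs]
  have hev := hlim.eventually (Metric.ball_mem_nhds _ one_pos)
  refine ⟨|Real.log ρ| + 1 + 3 * |(Module.finrank ℚ K : ℝ) * primeSqSum|, ?_⟩
  filter_upwards [hev, self_mem_nhdsWithin] with s hball hs
  have hs' : (1 : ℝ) < s := hs
  have hZ : 0 < ∑' n, zetaTerm K s n := by linarith [one_le_tsum_zetaTerm (K := K) hs']
  have hb : |Real.log ((s - 1) * ∑' n, zetaTerm K s n) - Real.log ρ| < 1 := hball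
  rw [Real.log_mul (by linarith) hZ.ne'] at hb
  have hlo := (Real.log_le_iff_le_exp hZ).2 (tsum_zetaTerm_le (K := K) hs')
  have hhi := tsum_primeTerm_le (K := K) hs'
  have := abs_lt.1 hb
  have := le_abs_self (Real.log ρ)
  have := neg_abs_le (Real.log ρ)
  have := le_abs_self ((Module.finrank ℚ K : ℝ) * primeSqSum)
  have := neg_abs_le ((Module.finrank ℚ K : ℝ) * primeSqSum)
  rw [abs_le]
  constructor <;> linarith

end Fermat.Agent.Density
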