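import Fermat.Agent.Density.Analytic

/-!
# Degree one primes of a subfield in terms of Frobenius elements

If `L/ℚ` is Galois, `Q` is a prime over `ℓ` with trivial inertia and `F` is a Frobenius at `Q`,
then `|H| · #{primes of L^H of norm ℓ} = #{g : g F g⁻¹ ∈ H}`.
-/

noncomputable section

open NumberField Polynomial
open scoped Pointwise

namespace Fermat.Agent.Density

variable {L : Type*} [Field L] [NumberField L]

/-- `g` acts as `x ↦ x ^ ℓ` modulo `Q`. -/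
def FrobAt (Q : Ideal (𝓞 L)) (ℓ : ℕ) (g : L ≃ₐ[ℚ] L) : Prop :=
  ∀ x : 𝓞 L, g • x - x ^ ℓ ∈ Q

/-- An automorphism is determined by its effect modulo `Q` (trivial inertia at `Q`). -/
def DeterminedMod (Q : Ideal (𝓞 L)) : Prop :=
  ∀ a b : L ≃ₐ[ℚ] L, (∀ x : 𝓞 L, a • x - b • x ∈ Q) → a = b

theorem exists_smul_ne {a b : L ≃ₐ[ℚ] L} (h : a ≠ b) : ∃ x : 𝓞 L, a • x ≠ b • x := by
  by_contra hc
  push Not at hc
  refine h (AlgEquiv.ext fun y => ?_)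
  obtain ⟨x, z, -, rfl⟩ := IsFractionRing.div_surjective (A := 𝓞 L) y
  rw [map_div₀, map_div₀]
  exact congrArg₂ (· / ·) (congrArg (algebraMap (𝓞 L) L) (hc x))
    (congrArg (algebraMap (𝓞 L) L) (hc z))

variable (L) in
theorem exists_bad_modulus :
    ∃ B : ℕ, B ≠ 0 ∧ ∀ (ℓ : ℕ) (Q : Ideal (𝓞 L)), ℓ.Prime → Q.IsPrime → (ℓ : 𝓞 L) ∈ Q →
      ¬ ℓ ∣ B → DeterminedMod Q := by
  classical
  choose x hx using fun (p : {p : (L ≃ₐ[ℚ] L) × (L ≃ₐ[ℚ] L) // p.1 ≠ p.2}) => exists_smul_ne p.2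
  set d : 𝓞 L := ∏ p : {p : (L ≃ₐ[ℚ] L) × (L ≃ₐ[ℚ] L) // p.1 ≠ p.2},
    (p.1.1 • x p - p.1.2 • x p) with hd
  refine ⟨Ideal.absNorm (Ideal.span {d}), ?_, fun ℓ Q hℓ hQ hmem hB a b hab => ?_⟩
  · rw [Ne, Ideal.absNorm_eq_zero_iff, Ideal.span_singleton_eq_bot, hd, Finset.prod_eq_zero_iff]
    rintro ⟨p, -, hp⟩
    exact hx p (sub_eq_zero.1 hp)
  · by_contra hne
    have hdQ : d ∈ Q := by
      rw [hd]
      exact Ideal.mem_of_dvd Q (Finset.dvd_prod_of_mem _ (Finset.mem_univ ⟨(a, b), hne⟩)) (hab _)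
    obtain ⟨n, hn, hnorm⟩ := absNorm_eq_pow_of_natCast_mem hℓ hQ hmem
    exact hB (dvd_trans (dvd_pow_self ℓ hn.ne')
      (hnorm ▸ Ideal.absNorm_dvd_absNorm_of_le ((Ideal.span_singleton_le_iff_mem _).2 hdQ)))

omit [NumberField L] in
theorem under_int_eq {ℓ : ℕ} (hℓ : ℓ.Prime) {Q : Ideal (𝓞 L)} (hQ : Q.IsPrime)
    (hmem : (ℓ : 𝓞 L) ∈ Q) : Q.under ℤ = Ideal.span {(ℓ : ℤ)} := by
  have : Fact ℓ.Prime := ⟨hℓ⟩
  refine ((Int.ideal_span_isMaximal_of_prime ℓ).eq_of_le (Ideal.IsPrime.ne_top inferInstance)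
    ((Ideal.span_singleton_le_iff_mem _).2 ?_)).symm
  simpa [Ideal.under_def, Ideal.mem_comap] using hmem

theorem finite_residueRing {ℓ : ℕ} (hℓ : ℓ.Prime) {Q : Ideal (𝓞 L)} (hQ : Q.IsPrime)
    (hmem : (ℓ : 𝓞 L) ∈ Q) : Finite (𝓞 L ⧸ Q) := by
  obtain ⟨n, hn, h⟩ := absNorm_eq_pow_of_natCast_mem hℓ hQ hmem
  exact (Ideal.absNorm_ne_zero_iff Q).1 (h ▸ pow_ne_zero _ hℓ.ne_zero)

variable (L) in
theorem exists_prime_over {ℓ : ℕ} (hℓ : ℓ.Prime) :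
    ∃ Q : Ideal (𝓞 L), Q.IsPrime ∧ (ℓ : 𝓞 L) ∈ Q := by
  have hne : Ideal.span {(ℓ : 𝓞 L)} ≠ ⊤ := by
    intro h
    have h1 := congrArg Ideal.absNorm h
    rw [Ideal.absNorm_span_natCast, Ideal.absNorm_top] at h1
    exact hℓ.ne_one ((pow_eq_one_iff.1 h1).resolve_right Module.finrank_pos.ne')
  obtain ⟨M, hM, hle⟩ := Ideal.exists_le_maximal _ hne
  exact ⟨M, hM.isPrime, hle (Ideal.mem_span_singleton_self _)⟩

/-- Every endomorphism of a finite field is a power of Frobenius. -/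
theorem exists_ringHom_eq_pow {k : Type*} [Field k] [Finite k] {ℓ : ℕ} [Fact ℓ.Prime]
    [CharP k ℓ] (φ : k →+* k) : ∃ i : ℕ, ∀ x, φ x = x ^ ℓ ^ i := by
  let _ := ZMod.algebra k ℓ
  let φA : k →ₐ[ZMod ℓ] k :=
    { φ with
      commutes' := fun r => RingHom.congr_fun
        (Subsingleton.elim (φ.comp (algebraMap (ZMod ℓ) k)) (algebraMap (ZMod ℓ) k)) r }
  obtain ⟨n, hn⟩ := (FiniteField.bijective_frobeniusAlgHom_pow (ZMod ℓ) k).2 φA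
  refine ⟨n, fun x => ?_⟩
  have := DFunLike.congr_fun hn x
  simp only [AlgHom.coe_pow, FiniteField.coe_frobeniusAlgHom, pow_iterate,
    Fintype.card_eq_nat_card, Nat.card_zmod] at this
  exact this.symm

theorem FrobAt.conj {Q : Ideal (𝓞 L)} {ℓ : ℕ} {F : L ≃ₐ[ℚ] L} (hF : FrobAt Q ℓ F)
    (g : L ≃ₐ[ℚ] L) : FrobAt (g • Q) ℓ (g * F * g⁻¹) := by
  intro x
  rw [Ideal.mem_pointwise_smul_iff_inv_smul_mem]
  have h := hF (g⁻¹ • x)
  rwa [smul_sub, smul_pow', mul_smul, mul_smul, inv_smul_smul]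

theorem DeterminedMod.conj {Q : Ideal (𝓞 L)} (hQ : DeterminedMod Q) (g : L ≃ₐ[ℚ] L) :
    DeterminedMod (g • Q) := by
  intro a b h
  have h' := hQ (g⁻¹ * a) (g⁻¹ * b) fun x => by
    have := Ideal.mem_pointwise_smul_iff_inv_smul_mem.1 (h x)
    rwa [smul_sub, ← mul_smul, ← mul_smul] at this
  exact mul_left_cancel h'

theorem natCast_mem_smul {Q : Ideal (𝓞 L)} {ℓ : ℕ} (hmem : (ℓ : 𝓞 L) ∈ Q) (g : L ≃ₐ[ℚ] L) :
    (ℓ : 𝓞 L) ∈ g • Q := by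
  rw [Ideal.mem_pointwise_smul_iff_inv_smul_mem, ← MulSemiringAction.toRingHom_apply, map_natCast]
  exact hmem

/-- Frobenius elements at a prime with trivial inertia are unique. -/
theorem FrobAt.unique {Q : Ideal (𝓞 L)} (hdet : DeterminedMod Q) {ℓ : ℕ} {F F' : L ≃ₐ[ℚ] L}
    (hF : FrobAt Q ℓ F) (hF' : FrobAt Q ℓ F') : F = F' :=
  hdet F F' fun x => by simpa using Q.sub_mem (hF x) (hF' x)

theorem FrobAt.pow_smul_sub_mem {Q : Ideal (𝓞 L)} {ℓ : ℕ} {F : L ≃ₐ[ℚ] L} (hF : FrobAt Q ℓ F)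
    (i : ℕ) (x : 𝓞 L) : F ^ i • x - x ^ ℓ ^ i ∈ Q := by
  induction i generalizing x with
  | zero => simp
  | succ i ih =>
    have h1 := ih (F • x)
    have h2 : (F • x) ^ ℓ ^ i - (x ^ ℓ) ^ ℓ ^ i ∈ Q :=
      Ideal.mem_of_dvd Q (sub_dvd_pow_sub_pow _ _ _) (hF x)
    rw [pow_succ, mul_smul, show x ^ ℓ ^ (i + 1) = (x ^ ℓ) ^ ℓ ^ i by rw [← pow_mul, pow_succ']]
    simpa using Q.add_mem h1 h2

/-- With trivial inertia, the decomposition group is generated by Frobenius. -/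
theorem exists_pow_eq_of_smul_eq {Q : Ideal (𝓞 L)} [hQ : Q.IsPrime] {ℓ : ℕ} (hℓ : ℓ.Prime)
    (hmem : (ℓ : 𝓞 L) ∈ Q) (hdet : DeterminedMod Q) {F : L ≃ₐ[ℚ] L} (hF : FrobAt Q ℓ F)
    {g : L ≃ₐ[ℚ] L} (hg : g • Q = Q) : ∃ i : ℕ, g = F ^ i := by
  have : Fact ℓ.Prime := ⟨hℓ⟩
  have : Finite (𝓞 L ⧸ Q) := finite_residueRing hℓ hQ hmem
  have : Q.IsMaximal := Ideal.Quotient.maximal_of_isField _ (Finite.isField_of_domain (𝓞 L ⧸ Q))
  let _ := Ideal.Quotient.field Q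
  have h0 : ((ℓ : ℕ) : 𝓞 L ⧸ Q) = 0 := by
    rw [← map_natCast (Ideal.Quotient.mk Q), Ideal.Quotient.eq_zero_iff_mem]
    exact hmem
  have : CharP (𝓞 L ⧸ Q) ℓ := (CharP.charP_iff_prime_eq_zero hℓ).2 h0
  have hle : Q ≤ Q.comap (MulSemiringAction.toRingHom (L ≃ₐ[ℚ] L) (𝓞 L) g) := by
    intro x hx
    rw [Ideal.mem_comap, MulSemiringAction.toRingHom_apply, ← hg,
      Ideal.mem_pointwise_smul_iff_inv_smul_mem, inv_smul_smul]
    exact hx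
  obtain ⟨i, hi⟩ := exists_ringHom_eq_pow (ℓ := ℓ) (Ideal.quotientMap Q _ hle)
  refine ⟨i, hdet g (F ^ i) fun x => ?_⟩
  have h1 := hi (Ideal.Quotient.mk Q x)
  rw [Ideal.quotientMap_mk, MulSemiringAction.toRingHom_apply, ← map_pow, Ideal.Quotient.eq] at h1
  simpa using Q.sub_mem h1 (hF.pow_smul_sub_mem i x)

section Galois

variable [IsGalois ℚ L]

theorem exists_frobAt {Q : Ideal (𝓞 L)} [hQ : Q.IsPrime] {ℓ : ℕ} (hℓ : ℓ.Prime)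
    (hmem : (ℓ : 𝓞 L) ∈ Q) : ∃ g : L ≃ₐ[ℚ] L, FrobAt Q ℓ g := by
  have : Finite (𝓞 L ⧸ Q) := finite_residueRing hℓ hQ hmem
  obtain ⟨σ, hσ⟩ := IsArithFrobAt.exists_of_isInvariant ℤ (L ≃ₐ[ℚ] L) Q
  refine ⟨σ, fun x => ?_⟩
  have h := hσ x
  rwa [under_int_eq hℓ hQ hmem, Nat.card_congr (Int.quotientSpanNatEquivZMod ℓ).toEquiv,
    Nat.card_zmod] at h

theorem exists_smul_eq {Q Q' : Ideal (𝓞 L)} [hQ : Q.IsPrime] [hQ' : Q'.IsPrime] {ℓ : ℕ}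
    (hℓ : ℓ.Prime) (hmem : (ℓ : 𝓞 L) ∈ Q) (hmem' : (ℓ : 𝓞 L) ∈ Q') :
    ∃ g : L ≃ₐ[ℚ] L, Q' = g • Q :=
  Algebra.IsInvariant.exists_smul_of_under_eq ℤ (𝓞 L) (L ≃ₐ[ℚ] L) Q Q'
    ((under_int_eq hℓ hQ hmem).trans (under_int_eq hℓ hQ' hmem').symm)

variable (H : Subgroup (L ≃ₐ[ℚ] L))

local notation "K_H" => IntermediateField.fixedField H

omit [IsGalois ℚ L] in
theorem smul_algebraMap_eq (h : H) (x : 𝓞 K_H) :
    (h : L ≃ₐ[ℚ] L) • algebraMap (𝓞 K_H) (𝓞 L) x = algebraMap (𝓞 K_H) (𝓞 L) x :=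
  RingOfIntegers.ext ((x : K_H).2 h)

instance fixedField_smulCommClass : SMulCommClass H (𝓞 K_H) (𝓞 L) where
  smul_comm h r x := by
    rw [Algebra.smul_def, Algebra.smul_def, Subgroup.smul_def, Subgroup.smul_def, smul_mul',
      smul_algebraMap_eq]

instance fixedField_isInvariant : Algebra.IsInvariant (𝓞 K_H) (𝓞 L) H where
  isInvariant b hb := by
    have hmem : (b : L) ∈ K_H := fun h => congrArg (algebraMap (𝓞 L) L) (hb h)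
    have hint : IsIntegral ℤ (⟨(b : L), hmem⟩ : K_H) :=
      (isIntegral_algebraMap_iff (algebraMap K_H L).injective).1 (RingOfIntegers.isIntegral_coe b)
    exact ⟨⟨_, hint⟩, RingOfIntegers.ext rfl⟩

omit [IsGalois ℚ L] in
/-- A prime lying under a prime whose Frobenius lies in `H` has degree one. -/
theorem absNorm_under_eq {Q : Ideal (𝓞 L)} [hQ : Q.IsPrime] {ℓ : ℕ} (hℓ : ℓ.Prime)
    (hmem : (ℓ : 𝓞 L) ∈ Q) {F : L ≃ₐ[ℚ] L} (hF : FrobAt Q ℓ F) (hFH : F ∈ H) :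
    Ideal.absNorm (Q.under (𝓞 K_H)) = ℓ := by
  set P := Q.under (𝓞 K_H)
  have hP : P.IsPrime := inferInstance
  have hmemP : (ℓ : 𝓞 K_H) ∈ P := by
    rw [Ideal.mem_comap, map_natCast]
    exact hmem
  have : Finite (𝓞 K_H ⧸ P) := finite_residueRing hℓ hP hmemP
  have : P.IsMaximal := Ideal.Quotient.maximal_of_isField _ (Finite.isField_of_domain (𝓞 K_H ⧸ P))
  let _ := Ideal.Quotient.field P
  have : Fintype (𝓞 K_H ⧸ P) := Fintype.ofFinite _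
  have hcard : Nat.card (𝓞 K_H ⧸ P) ≤ ℓ := by
    classical
    have hdeg := FiniteField.X_pow_card_sub_X_natDegree_eq (𝓞 K_H ⧸ P) hℓ.one_lt
    have hne := FiniteField.X_pow_card_sub_X_ne_zero (𝓞 K_H ⧸ P) hℓ.one_lt
    rw [Nat.card_eq_fintype_card, ← hdeg, ← Finset.card_univ]
    refine Polynomial.card_le_degree_of_subset_roots fun y _ => ?_
    obtain ⟨y, rfl⟩ := Ideal.Quotient.mk_surjective y
    rw [mem_roots hne, IsRoot.def, eval_sub, eval_pow, eval_X, ← map_pow, sub_eq_zero,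
      Ideal.Quotient.eq, Ideal.mem_comap, map_sub, map_pow]
    have h := hF (algebraMap (𝓞 K_H) (𝓞 L) y)
    rw [smul_algebraMap_eq H ⟨F, hFH⟩] at h
    simpa using Q.neg_mem h
  obtain ⟨n, hn, hnorm⟩ := absNorm_eq_pow_of_natCast_mem hℓ hP hmemP
  rw [Ideal.absNorm_apply, Submodule.cardQuot_apply] at hnorm
  rw [Ideal.absNorm_apply, Submodule.cardQuot_apply]
  exact le_antisymm hcard (hnorm ▸ Nat.le_self_pow hn.ne' ℓ)

omit [IsGalois ℚ L] in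
/-- The fibres of `g ↦ (g • Q) ∩ L^H` on `{g : g F g⁻¹ ∈ H}` are cosets of `H`. -/
theorem card_fibre_eq {ℓ : ℕ} (hℓ : ℓ.Prime) {Q : Ideal (𝓞 L)} [hQ : Q.IsPrime]
    (hmem : (ℓ : 𝓞 L) ∈ Q) (hdet : DeterminedMod Q) {F : L ≃ₐ[ℚ] L} (hF : FrobAt Q ℓ F)
    {g₀ : L ≃ₐ[ℚ] L} (hg₀ : g₀ * F * g₀⁻¹ ∈ H) :
    Nat.card {g : L ≃ₐ[ℚ] L // g * F * g⁻¹ ∈ H ∧
      (g • Q).under (𝓞 K_H) = (g₀ • Q).under (𝓞 K_H)} = Nat.card H := by
  have hiff : ∀ g : L ≃ₐ[ℚ] L, g * g₀⁻¹ ∈ H ↔ g * F * g⁻¹ ∈ H ∧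
      (g • Q).under (𝓞 K_H) = (g₀ • Q).under (𝓞 K_H) := by
    intro g
    constructor
    · intro hmem'
      constructor
      · have h1 : g * F * g⁻¹ = g * g₀⁻¹ * (g₀ * F * g₀⁻¹) * (g * g₀⁻¹)⁻¹ := by group
        rw [h1]
        exact H.mul_mem (H.mul_mem hmem' hg₀) (H.inv_mem hmem')
      · have h2 : g • Q = (⟨g * g₀⁻¹, hmem'⟩ : H) • (g₀ • Q) := by
          refine Eq.trans ?_ (mul_smul (g * g₀⁻¹) g₀ Q)
          rw [inv_mul_cancel_right]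
        rw [h2]
        exact Ideal.under_smul (𝓞 K_H) (g₀ • Q) (⟨g * g₀⁻¹, hmem'⟩ : H)
    · rintro ⟨-, heq⟩
      obtain ⟨h, hh⟩ := Algebra.IsInvariant.exists_smul_of_under_eq (𝓞 K_H) (𝓞 L) H
        (g₀ • Q) (g • Q) heq.symm
      replace hh : g • Q = ((h : L ≃ₐ[ℚ] L) * g₀) • Q :=
        hh.trans (mul_smul (h : L ≃ₐ[ℚ] L) g₀ Q).symm
      obtain ⟨i, hi⟩ := exists_pow_eq_of_smul_eq hℓ hmem hdet hF
        (g := ((h : L ≃ₐ[ℚ] L) * g₀)⁻¹ * g) (by rw [mul_smul, hh, inv_smul_smul])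
      have hpow : g₀ * F ^ i * g₀⁻¹ ∈ H := by
        rw [← conj_pow]
        exact H.pow_mem hg₀ i
      rw [inv_mul_eq_iff_eq_mul] at hi
      rw [hi, show (h : L ≃ₐ[ℚ] L) * g₀ * F ^ i * g₀⁻¹
        = (h : L ≃ₐ[ℚ] L) * (g₀ * F ^ i * g₀⁻¹) by group]
      exact H.mul_mem h.2 hpow
  rw [← Nat.card_congr (Equiv.subtypeEquivRight hiff)]
  refine Nat.card_congr ?_
  exact (Equiv.subtypeEquiv (Equiv.mulRight g₀⁻¹) fun g => by simp)

/-- The number of primes of norm `ℓ` of the fixed field of `H`. -/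
theorem card_conj_mem_eq {ℓ : ℕ} (hℓ : ℓ.Prime) {Q : Ideal (𝓞 L)} [hQ : Q.IsPrime]
    (hmem : (ℓ : 𝓞 L) ∈ Q) (hdet : DeterminedMod Q) {F : L ≃ₐ[ℚ] L} (hF : FrobAt Q ℓ F) :
    Nat.card {g : L ≃ₐ[ℚ] L // g * F * g⁻¹ ∈ H} = Nat.card H * normCount K_H ℓ := by
  classical
  let π : {g : L ≃ₐ[ℚ] L // g * F * g⁻¹ ∈ H} →
      {I : Ideal (𝓞 K_H) // Ideal.absNorm I = ℓ} :=
    fun g => ⟨(g.1 • Q).under (𝓞 K_H),
      absNorm_under_eq H hℓ (natCast_mem_smul hmem g.1) (hF.conj g.1) g.2⟩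
  have : Finite {I : Ideal (𝓞 K_H) // Ideal.absNorm I = ℓ} :=
    (Ideal.finite_setOfPred_absNorm_eq ℓ).to_subtype
  have : Fintype {I : Ideal (𝓞 K_H) // Ideal.absNorm I = ℓ} := Fintype.ofFinite _
  have hsurj : Function.Surjective π := by
    rintro ⟨P, hP⟩
    have hPprime := isPrime_of_absNorm_eq_prime hℓ hP
    have : P.IsMaximal := hPprime.isMaximal (ne_bot_of_absNorm_eq hℓ.ne_zero hP)
    obtain ⟨Q', hQ', hQP⟩ := Ideal.exists_ideal_over_maximal_of_isIntegral (S := 𝓞 L) P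
      (by simp)
    have : Q'.IsPrime := hQ'.isPrime
    have hmem' : (ℓ : 𝓞 L) ∈ Q' := by
      have h := natCast_mem_of_absNorm_eq hP
      rw [← hQP, Ideal.mem_comap, map_natCast] at h
      exact h
    obtain ⟨g, rfl⟩ := exists_smul_eq hℓ hmem hmem'
    have : Finite (𝓞 L ⧸ g • Q) := finite_residueRing hℓ ‹_› hmem'
    obtain ⟨h, hh⟩ := IsArithFrobAt.exists_of_isInvariant (𝓞 K_H) H (g • Q)
    have hc : Nat.card (𝓞 K_H ⧸ (g • Q).under (𝓞 K_H)) = ℓ := by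
      rw [show (g • Q).under (𝓞 K_H) = P from hQP, ← hP, Ideal.absNorm_apply,
        Submodule.cardQuot_apply]
    have hfr : FrobAt (g • Q) ℓ (h : L ≃ₐ[ℚ] L) := fun x => by
      have := hh x
      rwa [hc] at this
    refine ⟨⟨g, ?_⟩, Subtype.ext hQP⟩
    rw [← hfr.unique (hdet.conj g) (hF.conj g)]
    exact h.2
  have hfib : ∀ P, Nat.card {g // π g = P} = Nat.card H := by
    intro P
    obtain ⟨g₀, hg₀⟩ := hsurj P
    rw [← card_fibre_eq H hℓ hmem hdet hF g₀.2]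
    refine Nat.card_congr (((Equiv.subtypeEquivRight fun g => ?_).trans
      (Equiv.subtypeSubtypeEquivSubtypeInter _
        fun g => (g • Q).under (𝓞 K_H) = (g₀.1 • Q).under (𝓞 K_H))))
    rw [← hg₀, Subtype.ext_iff]
  calc Nat.card {g : L ≃ₐ[ℚ] L // g * F * g⁻¹ ∈ H}
      = Nat.card (Σ P, {g // π g = P}) := Nat.card_congr (Equiv.sigmaFiberEquiv π).symm
    _ = ∑ P, Nat.card {g // π g = P} := Nat.card_sigma
    _ = _ := by
        rw [Finset.sum_congr rfl fun P _ => hfib P, Finset.sum_const, Finset.card_univ,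
          smul_eq_mul, mul_comm, normCount, Nat.card_eq_fintype_card
            (α := {I : Ideal (𝓞 K_H) // Ideal.absNorm I = ℓ})]

end Galois

end Fermat.Agent.Density
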